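import Fermat.Agent.TwoAdic.Galois.Defs
import Fermat.Agent.EC.Rep.Tate.DetCyclotomic
import Fermat.Agent.EC.Rep.Local.Unipotent
import Fermat.Agent.EC.Rep.Local.Flat
import Fermat.Agent.FiniteFlat.GalOrderOps

/-!
# The representations of the curve modulo powers of `2`

Frobenius, determinant, ramification at odd primes and the Galois order at `2` of `rhoPow`.
-/

set_option autoImplicit false
set_option synthInstance.maxHeartbeats 400000

noncomputable section

open WeierstrassCurve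
open scoped Matrix

namespace Fermat.Agent.TwoAdic.Congruence

open Arith (QBar GQ)

variable {W : WeierstrassCurve ℤ} (hΔ : W.Δ ≠ 0)

/-- The action on the coordinates of the Tate module. -/
def act (σ : GQ) : ℤ_[2] × ℤ_[2] →ₗ[ℤ_[2]] ℤ_[2] × ℤ_[2] := (EC.Rep.tateRep W 2 hΔ).ρ σ

/-- The projection to `E[2 ^ k]` on coordinates. -/
def red (k : ℕ) : ℤ_[2] × ℤ_[2] →+ EC.Rep.PtQ W := EC.Rep.tateRed hΔ k

theorem red_eq_zero_iff (k : ℕ) (v : ℤ_[2] × ℤ_[2]) : red hΔ k v = 0 ↔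
    PadicInt.toZModPow (p := 2) k v.1 = 0 ∧ PadicInt.toZModPow (p := 2) k v.2 = 0 := by
  simp only [← RingHom.mem_ker, PadicInt.ker_toZModPow]
  exact EC.Rep.tateRed_eq_zero_iff hΔ k v

theorem rho_eq_toMatrix (σ : GQ) : rho W hΔ σ = LinearMap.toMatrix (Module.Basis.finTwoProd ℤ_[2])
    (Module.Basis.finTwoProd ℤ_[2]) (act hΔ σ) := rfl

theorem trace_rho (σ : GQ) : (rho W hΔ σ).trace = (EC.Rep.tateRep W 2 hΔ).trace σ :=
  (LinearMap.trace_eq_matrix_trace ℤ_[2] (Module.Basis.finTwoProd ℤ_[2]) _).symm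

theorem det_rho (σ : GQ) :
    (rho W hΔ σ).det = LinearMap.det ((EC.Rep.tateRep W 2 hΔ).ρ σ) :=
  LinearMap.det_toMatrix (Module.Basis.finTwoProd ℤ_[2]) _

theorem rho_frobenius {ℓ : ℕ} (hℓ : ℓ.Prime) (hgood : W.IsGoodPrimeFor ℓ) (hne : ℓ ≠ 2)
    {A : ValuationSubring QBar} (hA : A.LiesOverPrime ℓ) {σ : GQ} (hσ : A.IsFrobeniusAt σ ℓ) :
    (rho W hΔ σ).trace = (W.apOfModel ℓ : ℤ_[2]) ∧ (rho W hΔ σ).det = (ℓ : ℤ_[2]) := by
  rw [trace_rho, det_rho]
  exact EC.Rep.tateRep_trace_det_frobenius hΔ hℓ hgood hne hA hσ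

theorem rho_unramified {ℓ : ℕ} (hℓ : ℓ.Prime) (hgood : W.IsGoodPrimeFor ℓ) (hne : ℓ ≠ 2)
    {A : ValuationSubring QBar} (hA : A.LiesOverPrime ℓ) {τ : GQ}
    (hτ : τ ∈ A.inertiaSubgroupIn ℚ) : rho W hΔ τ = 1 := by
  rw [rho_eq_toMatrix, show act hΔ τ = 1 from EC.Rep.isUnramifiedAt_tateRep hΔ hℓ hgood hne A hA τ hτ]
  exact LinearMap.toMatrix_one _

theorem rho_det_sub_mem (k : ℕ) (σ : GQ) (c : ℕ)
    (hc : ∀ ζ : QBar, ζ ^ 2 ^ k = 1 → σ ζ = ζ ^ c) :
    (rho W hΔ σ).det - (c : ℤ_[2]) ∈ Ideal.span {(2 : ℤ_[2]) ^ k} := by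
  rw [det_rho]
  have h := (EC.Rep.detIsCyclotomic_tateRep (p := 2) hΔ).2 k σ c hc
  push_cast at h
  exact h

theorem rho_bad (hss : W.IsSemistableModel) {ℓ : ℕ} (hℓ : ℓ.Prime) (hne : ℓ ≠ 2)
    {A : ValuationSubring QBar} (hA : A.LiesOverPrime ℓ) {τ : GQ}
    (hτ : τ ∈ A.inertiaSubgroupIn ℚ) :
    (rho W hΔ τ).trace = 2 ∧ (rho W hΔ τ - 1) ^ 2 = 0 := by
  have h : LinearMap.charpoly (act hΔ τ) = (Polynomial.X - 1) ^ 2 :=
    EC.Rep.isUnipotentOnInertiaAt_tateRep (p := 2) hΔ hℓ hne (fun h => hss ℓ hℓ h.2 h.1)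
      A hA τ hτ
  rw [← LinearMap.charpoly_toMatrix _ (Module.Basis.finTwoProd ℤ_[2]), ← rho_eq_toMatrix,
    Matrix.charpoly_fin_two, show (Polynomial.X - 1 : Polynomial ℤ_[2]) ^ 2 =
      Polynomial.X ^ 2 - Polynomial.C 2 * Polynomial.X + Polynomial.C 1 by
      rw [Polynomial.C_ofNat, Polynomial.C_1]; ring] at h
  have htr : (rho W hΔ τ).trace = 2 := by
    have := congrArg (fun p => Polynomial.coeff p 1) h
    simpa [Polynomial.coeff_X_pow, Polynomial.coeff_one] using this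
  have hdet : (rho W hΔ τ).det = 1 := by
    have := congrArg (fun p => Polynomial.coeff p 0) h
    simpa [Polynomial.coeff_X_pow] using this
  refine ⟨htr, ?_⟩
  rw [Matrix.trace_fin_two] at htr
  rw [Matrix.det_fin_two] at hdet
  ext i j
  fin_cases i <;> fin_cases j <;>
    simp [pow_two, Matrix.mul_apply, Fin.sum_univ_two] <;>
    first
    | linear_combination (rho W hΔ τ 0 0) * htr - hdet
    | linear_combination (rho W hΔ τ 0 1) * htr
    | linear_combination (rho W hΔ τ 1 0) * htr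
    | linear_combination (rho W hΔ τ 1 1) * htr - hdet

theorem rhoPow_apply (k : ℕ) (σ : GQ) :
    rhoPow W hΔ k σ = (rho W hΔ σ).map (PadicInt.toZModPow (p := 2) k) := rfl

theorem isFiniteLevel_rhoPow (k : ℕ) : IsFiniteLevel (rhoPow W hΔ k) := by
  obtain ⟨L, hfin, hL⟩ := (EC.Rep.tateRep W 2 hΔ).isAdicContinuous k
  refine ⟨L, hfin, fun σ hσ => ?_⟩
  rw [rhoPow_apply]
  set b := Module.Basis.finTwoProd ℤ_[2] with hb
  have hmem : ∀ v : ℤ_[2] × ℤ_[2], ∀ i, b.repr (act hΔ σ v - v) i ∈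
      (IsLocalRing.maximalIdeal ℤ_[2]) ^ k := fun v i => by
    have h1 : act hΔ σ v - v ∈ (IsLocalRing.maximalIdeal ℤ_[2] ^ k) •
        (⊤ : Submodule ℤ_[2] (ℤ_[2] × ℤ_[2])) := hL σ hσ v
    refine Submodule.smul_induction_on h1 (fun r hr m _ => ?_) fun x y hx hy => ?_
    · rw [map_smul, Finsupp.smul_apply, smul_eq_mul]
      exact Ideal.mul_mem_right _ _ hr
    · rw [map_add, Finsupp.add_apply]
      exact add_mem hx hy
  ext i j
  rw [Matrix.map_apply, rho_eq_toMatrix, LinearMap.toMatrix_apply]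
  have h := hmem (b j) i
  rw [map_sub, Finsupp.sub_apply, Module.Basis.repr_self, PadicInt.maximalIdeal_eq_span_p,
    Ideal.span_singleton_pow, ← PadicInt.ker_toZModPow, RingHom.mem_ker, map_sub, sub_eq_zero]
    at h
  refine h.trans ?_
  rw [Finsupp.single_apply, Matrix.one_apply]
  by_cases h : i = j
  · subst h; simp
  · rw [if_neg h, if_neg (Ne.symm h), map_zero]

theorem rhoBar_eq_map (k : ℕ) (hk : 1 ≤ k) (σ : GQ) :
    rhoBar W hΔ σ = (rhoPow W hΔ k σ).map (ZMod.castHom (dvd_pow_self 2 (by omega)) (ZMod 2)) := by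
  have : (PadicInt.toZMod : ℤ_[2] →+* ZMod 2) =
      (ZMod.castHom (dvd_pow_self 2 (by omega)) (ZMod 2)).comp (PadicInt.toZModPow (p := 2) k) := by
    refine ZMod.ringHom_eq_of_ker_eq _ _ ?_
    rw [PadicInt.ker_toZMod]
    refine le_antisymm (fun x hx => ?_) (IsLocalRing.le_maximalIdeal (RingHom.ker_ne_top _))
    rw [PadicInt.maximalIdeal_eq_span_p, Ideal.mem_span_singleton'] at hx
    obtain ⟨y, rfl⟩ := hx
    rw [RingHom.mem_ker, map_mul, map_natCast, ZMod.natCast_self, mul_zero]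
  ext i j
  exact RingHom.congr_fun this _

/-- Lifts of the coordinates. -/
def lift (k : ℕ) (v : Fin 2 → ZMod (2 ^ k)) : ℤ_[2] × ℤ_[2] := ((v 0).val, (v 1).val)

theorem red_lift_eq_of (k : ℕ) (v : Fin 2 → ZMod (2 ^ k)) (w : ℤ_[2] × ℤ_[2])
    (h0 : PadicInt.toZModPow (p := 2) k w.1 = v 0)
    (h1 : PadicInt.toZModPow (p := 2) k w.2 = v 1) : red hΔ k (lift k v) = red hΔ k w := by
  rw [← sub_eq_zero, ← map_sub, red_eq_zero_iff]
  simp [lift, h0, h1]

/-- The coordinates of a point of `E[2 ^ k]`. -/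
def torsMap (k : ℕ) : MatMod (rhoPow W hΔ k) →+ EC.Rep.TorsPt W (2 ^ k) :=
  AddMonoidHom.mk'
    (fun v => ⟨red hΔ k (lift k v), (Submodule.mem_torsionBy_iff _ _).mpr (by
      push_cast
      exact EC.Rep.pow_smul_tateRed hΔ k _)⟩)
    fun v w => Subtype.ext (by
      show red hΔ k _ = red hΔ k _ + red hΔ k _
      rw [← map_add]
      exact red_lift_eq_of hΔ k _ _ (by simp [lift]; rfl) (by simp [lift]; rfl))

theorem torsMap_injective (k : ℕ) : Function.Injective (torsMap (W := W) hΔ k) := by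
  refine (injective_iff_map_eq_zero _).mpr fun v hv => ?_
  obtain ⟨h0, h1⟩ := (red_eq_zero_iff hΔ k _).mp (congrArg Subtype.val hv)
  simp only [lift, map_natCast, ZMod.natCast_zmod_val] at h0 h1
  funext i
  fin_cases i
  · exact h0
  · exact h1

theorem torsMap_equivariant (k : ℕ) (σ : GQ) (v : MatMod (rhoPow W hΔ k)) :
    torsMap hΔ k (σ • v) = σ • torsMap hΔ k v := by
  refine Subtype.ext ?_
  let v' : Fin 2 → ZMod (2 ^ k) := v
  show red hΔ k (lift k ((rhoPow W hΔ k σ).mulVec v')) = σ • red hΔ k (lift k v')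
  refine (red_lift_eq_of hΔ k _ (act hΔ σ (lift k v')) ?_ ?_).trans
    (EC.Rep.red_tateRep hΔ σ k _)
  all_goals
    have h1 := LinearMap.toMatrix_mulVec_repr (Module.Basis.finTwoProd ℤ_[2])
      (Module.Basis.finTwoProd ℤ_[2]) (act hΔ σ) (lift k v')
    have h2 : ∀ u : ℤ_[2] × ℤ_[2],
        ((Module.Basis.finTwoProd ℤ_[2]).repr u : Fin 2 → ℤ_[2]) = ![u.1, u.2] := fun u => by
      ext i; fin_cases i <;> simp
    rw [h2, h2, ← rho_eq_toMatrix] at h1
    have h3 := congrFun h1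
    have hv : ∀ i, PadicInt.toZModPow (p := 2) k (![(lift k v').1, (lift k v').2] i) = v' i :=
      fun i => by fin_cases i <;> simp [lift]
    simp only [Matrix.mulVec, dotProduct, Fin.sum_univ_two, Matrix.cons_val_zero,
      Matrix.cons_val_one, rhoPow_apply, Matrix.map_apply] at h3 ⊢
    have hv0 := hv 0
    have hv1 := hv 1
    simp only [Matrix.cons_val_zero, Matrix.cons_val_one] at hv0 hv1
    first
      | (have h4 := congrArg (PadicInt.toZModPow (p := 2) k) (h3 0)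
         simp only [Matrix.cons_val_zero] at h4
         rw [map_add, map_mul, map_mul, hv0, hv1] at h4
         exact h4.symm)
      | (have h4 := congrArg (PadicInt.toZModPow (p := 2) k) (h3 1)
         simp only [Matrix.cons_val_one] at h4
         rw [map_add, map_mul, map_mul, hv0, hv1] at h4
         exact h4.symm)

theorem exists_galOrder_rhoPow (hgood : W.IsGoodPrimeFor 2) (k : ℕ) :
    Nonempty (FiniteFlat.GalOrder 2 (MatMod (rhoPow W hΔ k))) := by
  obtain ⟨O⟩ := EC.Rep.exists_galOrder_torsion_pow (W := W) Nat.prime_two hgood k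
  exact ⟨O.restrict (torsMap hΔ k) (torsMap_injective hΔ k) (torsMap_equivariant hΔ k)⟩

end Fermat.Agent.TwoAdic.Congruence
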