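import Fermat.Agent.TwoAdic.Congruence.Main
import Fermat.Agent.TwoAdic.Curve.CurveRep
import Fermat.Agent.TwoAdic.LocalTwo.Properties
import Fermat.Agent.TwoAdic.Dihedral.DatumBound

/-!
# The congruence input from the representations of newforms alone
-/

set_option autoImplicit false

namespace Fermat.Agent.TwoAdic.Congruence

/-- The congruence input, given the representations of newforms. -/
theorem congruenceInput_of_newformRep (hrep : NewformRepInputTwo) : CongruenceInput :=
  congruenceInput hrep curveRepInput LocalTwo.peuProperty Dihedral.dihedralBound

end Fermat.Agent.TwoAdic.Congruence
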