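import Mathlib.LinearAlgebra.Matrix.Adjugate
import Mathlib.LinearAlgebra.Matrix.NonsingularInverse
import Mathlib.LinearAlgebra.LinearIndependent.Basic
import Mathlib.LinearAlgebra.Dimension.StrongRankCondition
import Mathlib.LinearAlgebra.Matrix.ToLinearEquiv
import Mathlib.Algebra.BigOperators.Ring.Finset
import Mathlib.LinearAlgebra.Dual.Lemmas
import Mathlib.Data.Complex.Basic
import Mathlib.Tactic.LinearCombination

/-!
# Congruences between characters from a bound on the number of generators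

If the values of `d` independent characters and of an integer character span a group with `d`
generators modulo a power of `2`, then the integer character is congruent to one of the `d`
characters modulo `2 ^ j` with `j * d ≤ n + 1`.
-/

set_option autoImplicit false

open Finset Matrix

namespace Fermat.Agent.TwoAdic.Congruence

/-- Distinct ring homomorphisms to a field have a nonsingular evaluation matrix. -/
theorem exists_det_ne_zero {ι U K : Type*} [Fintype ι] [DecidableEq ι] [CommRing U] [Field K]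
    (g : ι → U →+* K) (hg : Function.Injective g) :
    ∃ us : ι → U, (Matrix.of fun i k => g i (us k)).det ≠ 0 := by
  classical
  have hli : LinearIndependent K fun i => (⇑(g i) : U → K) :=
    (linearIndependent_monoidHom U K).comp (fun i => (g i).toMonoidHom) fun i j h =>
      hg (RingHom.ext fun x => DFunLike.congr_fun h x)
  set v : U → ι → K := fun u i => g i u with hv
  have htop : Submodule.span K (Set.range v) = ⊤ := by
    by_contra h
    obtain ⟨φ, hφ, hle⟩ := Submodule.exists_le_ker_of_lt_top _ (lt_top_iff_ne_top.mpr h)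
    have h0 : ∀ i, φ (Pi.single i 1) = 0 := by
      refine Fintype.linearIndependent_iff.mp hli (fun i => φ (Pi.single i 1)) ?_
      funext u
      have hu : φ (v u) = 0 := hle (Submodule.subset_span ⟨u, rfl⟩)
      rw [← Finset.univ_sum_single (v u), map_sum] at hu
      simp only [Finset.sum_apply, Pi.smul_apply, smul_eq_mul, Pi.zero_apply]
      refine (Finset.sum_congr rfl fun i _ => ?_).trans hu
      rw [mul_comm, ← smul_eq_mul, ← map_smul, ← Pi.single_smul, smul_eq_mul, mul_one]
    exact hφ (LinearMap.pi_ext' fun i => LinearMap.ext_ring (by simpa using h0 i))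
  obtain ⟨f, hf, hspan, hli'⟩ := Submodule.exists_fun_fin_finrank_span_eq K (Set.range v)
  have hcard : Module.finrank K (Submodule.span K (Set.range v)) = Fintype.card ι := by
    rw [htop, finrank_top, Module.finrank_fintype_fun_eq_card]
  choose us hus using hf
  obtain ⟨e⟩ : Nonempty (ι ≃ Fin (Module.finrank K (Submodule.span K (Set.range v)))) :=
    ⟨(Fintype.equivFinOfCardEq hcard.symm)⟩
  refine ⟨fun k => us (e k), ?_⟩
  rw [← Matrix.det_transpose, ← isUnit_iff_ne_zero, ← Matrix.isUnit_iff_isUnit_det,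
    ← Matrix.linearIndependent_rows_iff_isUnit]
  have hrow : (Matrix.of fun i k => g i (us (e k)))ᵀ.row = f ∘ e := by
    funext k i
    simp [← hus, hv]
  rw [hrow]
  exact hli'.comp e e.injective

variable {ι U : Type*} [Fintype ι] [DecidableEq ι] [CommRing U] {V : Subring ℂ}

/-- A relation between the characters with coefficients in `V` holds for the integer character
modulo `2 ^ (n + 1)`. -/
theorem eval_relation (g : ι → U →+* ℂ) (hV : ∀ i u, g i u ∈ V) (evE : U →+* ℤ) (n e : ℕ)
    (w us : ι → U)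
    (hgen : ∀ u, ∃ z : ι → ℤ,
      (∀ i, ∃ v ∈ V, g i u - ∑ l, (z l : ℂ) * g i (w l) = 2 ^ (n + 1 + e) * v) ∧
        (2 : ℤ) ^ (n + 1) ∣ evE u - ∑ l, z l * evE (w l))
    (hdet : ∃ v ∈ V, (Matrix.of fun i k => g i (us k)).det * v = 2 ^ e)
    {σ : Type*} [Fintype σ] (c : σ → ℂ) (hc : ∀ s, c s ∈ V) (u : σ → U)
    (hrel : ∀ i, ∑ s, c s * g i (u s) = 0) :
    ∃ v ∈ V, ∑ s, c s * (evE (u s) : ℂ) = 2 ^ (n + 1) * v := by
  classical
  choose z hz hzE using hgen
  choose r hrV hr using hz
  choose y hy using hzE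
  let G : Matrix ι ι V := Matrix.of fun i l => ⟨g i (w l), hV i _⟩
  let Z : Matrix ι ι V := Matrix.of fun l k => (z (us k) l : V)
  let M : Matrix ι ι V := Matrix.of fun i k => ⟨g i (us k), hV i _⟩
  let C : ι → V := fun l => ∑ s, ⟨c s, hc s⟩ * (z (u s) l : V)
  have h2V : ((2 : V) : ℂ) = 2 := rfl
  -- the coefficients of the relation on the generators vanish modulo `2 ^ (n + 1 + e)`
  have hGC : G *ᵥ C = fun i => (2 : V) ^ (n + 1 + e) *
      -∑ s, ⟨c s, hc s⟩ * ⟨r (u s) i, hrV _ i⟩ := by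
    funext i
    refine Subtype.ext ?_
    simp only [Matrix.mulVec, dotProduct, G, C, Matrix.of_apply]
    push_cast
    rw [h2V]
    have h1 : ∀ s, ∑ l, g i (w l) * (c s * (z (u s) l : ℂ)) =
        c s * g i (u s) - 2 ^ (n + 1 + e) * (c s * r (u s) i) := fun s => by
      rw [mul_left_comm, ← hr, mul_sub, sub_sub_cancel, Finset.mul_sum]
      exact Finset.sum_congr rfl fun l _ => by ring
    simp only [Finset.mul_sum]
    rw [Finset.sum_comm, Finset.sum_congr rfl fun s _ => h1 s, Finset.sum_sub_distrib, hrel,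
      zero_sub, mul_neg, Finset.mul_sum]
  -- the evaluation matrix factors through the generators
  have hM : ∃ x : V, M.det = G.det * Z.det + 2 ^ (n + 1 + e) * x := by
    let π := Ideal.Quotient.mk (Ideal.span {(2 : V) ^ (n + 1 + e)})
    have hπ : π.mapMatrix M = π.mapMatrix (G * Z) := by
      ext i k
      refine Ideal.Quotient.eq.mpr (Ideal.mem_span_singleton.mpr ⟨⟨r (us k) i, hrV _ i⟩, ?_⟩)
      refine Subtype.ext ?_
      simp only [M, G, Z, Matrix.mul_apply, Matrix.of_apply]
      push_cast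
      rw [h2V, ← hr]
      exact congrArg _ (Finset.sum_congr rfl fun l _ => mul_comm _ _)
    have h2 : π M.det = π (G.det * Z.det) := by
      rw [← Matrix.det_mul, RingHom.map_det, RingHom.map_det, hπ]
    obtain ⟨x, hx⟩ := Ideal.mem_span_singleton.mp (Ideal.Quotient.eq.mp h2)
    exact ⟨x, by rw [← hx]; ring⟩
  obtain ⟨x, hx⟩ := hM
  obtain ⟨v₀, hv₀, hdet⟩ := hdet
  have hdet' : (M.det : ℂ) * v₀ = 2 ^ e := by
    rw [← hdet]
    congr 1
    exact (RingHom.map_det V.subtype M)
  have hC : ∀ l, ∃ y : V, C l = (2 : V) ^ (n + 1) * y := fun l => by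
    obtain ⟨a, ha⟩ : ∃ a : V, G.det * C l = (2 : V) ^ (n + 1 + e) * a := by
      have h3 : G.adjugate *ᵥ (G *ᵥ C) = G.det • C := by
        rw [Matrix.mulVec_mulVec, Matrix.adjugate_mul, Matrix.smul_mulVec, Matrix.one_mulVec]
      have h4 := congrFun h3 l
      rw [hGC, Pi.smul_apply, smul_eq_mul] at h4
      simp only [Matrix.mulVec, dotProduct] at h4
      rw [← h4]
      refine ⟨∑ i, G.adjugate l i * -∑ s, ⟨c s, hc s⟩ * ⟨r (u s) i, hrV _ i⟩, ?_⟩
      rw [Finset.mul_sum]
      exact Finset.sum_congr rfl fun i _ => by ring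
    have h5 : (M.det : ℂ) = (G.det : ℂ) * (Z.det : ℂ) + 2 ^ (n + 1 + e) * (x : ℂ) := by
      simpa [h2V] using congrArg Subtype.val hx
    have h6 : (G.det : ℂ) * (C l : ℂ) = 2 ^ (n + 1 + e) * (a : ℂ) := by
      simpa [h2V] using congrArg Subtype.val ha
    refine ⟨(C l * x + a * Z.det) * ⟨v₀, hv₀⟩, Subtype.ext ?_⟩
    push_cast
    rw [h2V]
    refine mul_left_cancel₀ (pow_ne_zero e (two_ne_zero (α := ℂ))) ?_
    rw [pow_add] at h5 h6
    linear_combination (-(C l : ℂ)) * hdet' + (C l : ℂ) * v₀ * h5 + (Z.det : ℂ) * v₀ * h6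
  choose q hq using hC
  refine ⟨∑ l, (q l : ℂ) * (evE (w l) : ℂ) + ∑ s, c s * (y (u s) : ℂ), ?_, ?_⟩
  · exact add_mem (sum_mem fun l _ => mul_mem (q l).2 (intCast_mem V _))
      (sum_mem fun s _ => mul_mem (hc s) (intCast_mem V _))
  · have h7 : ∀ s, (evE (u s) : ℂ) =
        ∑ l, (z (u s) l : ℂ) * (evE (w l) : ℂ) + 2 ^ (n + 1) * (y (u s) : ℂ) := fun s => by
      have := congrArg (Int.cast : ℤ → ℂ) (hy (u s))
      push_cast at this
      linear_combination this
    rw [mul_add, Finset.mul_sum, Finset.mul_sum,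
      Finset.sum_congr rfl fun s _ => by rw [h7 s, mul_add], Finset.sum_add_distrib]
    congr 1
    · simp only [Finset.mul_sum]
      rw [Finset.sum_comm]
      refine Finset.sum_congr rfl fun l _ => ?_
      have := congrArg Subtype.val (hq l)
      simp only [C] at this
      push_cast at this
      rw [h2V] at this
      rw [← mul_assoc, ← this, Finset.sum_mul]
      exact Finset.sum_congr rfl fun s _ => by ring
    · exact Finset.sum_congr rfl fun s _ => by ring

/-- The integer character is congruent to one of the characters modulo `2 ^ j`. -/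
theorem exists_congruent [Nonempty ι] (g : ι → U →+* ℂ) (hV : ∀ i u, g i u ∈ V) (evE : U →+* ℤ)
    (n e j : ℕ) (w us : ι → U)
    (hgen : ∀ u, ∃ z : ι → ℤ,
      (∀ i, ∃ v ∈ V, g i u - ∑ l, (z l : ℂ) * g i (w l) = 2 ^ (n + 1 + e) * v) ∧
        (2 : ℤ) ^ (n + 1) ∣ evE u - ∑ l, z l * evE (w l))
    (hdet : ∃ v ∈ V, (Matrix.of fun i k => g i (us k)).det * v = 2 ^ e)
    (htot : ∀ i u, (∃ v ∈ V, g i u = 2 ^ j * v) ∨
      ∃ v ∈ V, g i u * v = 2 ^ j ∧ ∀ v' ∈ V, v * v' ≠ 1)
    (hj : j * Fintype.card ι ≤ n + 1) :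
    ∃ i, ∀ u, ∃ v ∈ V, g i u - (evE u : ℂ) = 2 ^ j * v := by
  classical
  by_contra h
  simp only [not_exists, not_forall] at h
  choose u hu using h
  let x : ι → U := fun i => u i - (evE (u i) : U)
  have hgx : ∀ i, g i (x i) = g i (u i) - (evE (u i) : ℂ) := fun i => by
    simp [x, map_intCast]
  have hEx : ∀ i, evE (x i) = 0 := fun i => by simp [x]
  have hw : ∀ i, ∃ v ∈ V, g i (x i) * v = 2 ^ j ∧ ∀ v' ∈ V, v * v' ≠ 1 := fun i => by
    refine (htot i (x i)).resolve_left fun ⟨v, hv, e⟩ => hu i v ⟨hv, ?_⟩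
    rw [← hgx, e]
  choose v hvV hv hnu using hw
  obtain ⟨y, hyV, hy⟩ := eval_relation g hV evE n e w us hgen hdet
    (σ := (univ : Finset ι).powerset)
    (fun t => (-1 : ℂ) ^ (t : Finset ι).card * ∏ i ∈ (t : Finset ι), g i (x i))
    (fun t => mul_mem (pow_mem (neg_mem (one_mem V)) _) (prod_mem fun i _ => hV i _))
    (fun t => ∏ i ∈ univ \ (t : Finset ι), x i) (fun i₀ => by
      calc _ = ∑ t ∈ (univ : Finset ι).powerset,
            (∏ i ∈ t, -g i (x i)) * ∏ i ∈ univ \ t, g i₀ (x i) := by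
            rw [← Finset.sum_coe_sort (univ : Finset ι).powerset]
            exact Finset.sum_congr rfl fun t _ => by rw [Finset.prod_neg, map_prod]
        _ = ∏ i, (-g i (x i) + g i₀ (x i)) := (Finset.prod_add _ _ _).symm
        _ = 0 := Finset.prod_eq_zero (mem_univ i₀) (neg_add_cancel _))
  have hsum : ∑ t : ((univ : Finset ι).powerset : Finset (Finset ι)),
      ((-1 : ℂ) ^ (t : Finset ι).card * ∏ i ∈ (t : Finset ι), g i (x i)) *
        (evE (∏ i ∈ univ \ (t : Finset ι), x i) : ℂ) = ∏ i, -g i (x i) := by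
    calc _ = ∑ t ∈ (univ : Finset ι).powerset,
          (∏ i ∈ t, -g i (x i)) * ∏ i ∈ univ \ t, (evE (x i) : ℂ) := by
          rw [← Finset.sum_coe_sort (univ : Finset ι).powerset]
          exact Finset.sum_congr rfl fun t _ => by rw [Finset.prod_neg, map_prod, Int.cast_prod]
      _ = ∏ i, (-g i (x i) + (evE (x i) : ℂ)) := (Finset.prod_add _ _ _).symm
      _ = _ := by simp [hEx]
  rw [hsum, Finset.prod_neg] at hy
  have h2 : ((2 : ℂ) ^ j) ^ Fintype.card ι = (∏ i, g i (x i)) * ∏ i, v i := by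
    rw [← Finset.prod_mul_distrib, Finset.prod_congr rfl fun i _ => hv i, Finset.prod_const,
      Finset.card_univ]
  obtain ⟨i₀⟩ := ‹Nonempty ι›
  have hone : (∏ i, v i) *
      ((-1) ^ Fintype.card ι * 2 ^ (n + 1 - j * Fintype.card ι) * y) = 1 := by
    refine mul_left_cancel₀ (pow_ne_zero (j * Fintype.card ι) (two_ne_zero (α := ℂ))) ?_
    have h3 : ((-1 : ℂ) ^ Fintype.card ι) * (-1) ^ Fintype.card ι = 1 := by
      rw [← mul_pow]; norm_num
    rw [← pow_mul] at h2
    rw [Finset.card_univ] at hy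
    have h4 : (2 : ℂ) ^ (n + 1) =
        2 ^ (j * Fintype.card ι) * 2 ^ (n + 1 - j * Fintype.card ι) := by
      rw [← pow_add, Nat.add_sub_cancel' hj]
    rw [h4] at hy
    linear_combination (-(∏ i, v i) * (-1 : ℂ) ^ Fintype.card ι) * hy
      + (∏ i, v i) * (∏ i, g i (x i)) * h3 - h2
  refine hnu i₀ ((∏ i ∈ univ.erase i₀, v i) *
    ((-1) ^ Fintype.card ι * 2 ^ (n + 1 - j * Fintype.card ι) * y))
    (mul_mem (prod_mem fun i _ => hvV i) (mul_mem (mul_mem (pow_mem (neg_mem (one_mem V)) _)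
      (pow_mem (ofNat_mem V 2) _)) hyV)) ?_
  rw [← mul_assoc, Finset.mul_prod_erase univ v (mem_univ i₀)]
  exact hone

end Fermat.Agent.TwoAdic.Congruence
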