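import Mathlib.RingTheory.Idempotents
import Mathlib.RingTheory.Nilpotent.Basic
import Mathlib.LinearAlgebra.Matrix.Adjugate
import Mathlib.LinearAlgebra.Matrix.Trace
import Mathlib.Data.ZMod.Basic
import Mathlib.RingTheory.Adjoin.Basic
import Mathlib.Tactic.LinearCombination
import Mathlib.Tactic.Module
import Mathlib.Tactic.NoncommRing

/-!
# Descent of a two-dimensional representation to its ring of traces

If the traces of `ρ : G →* M₂(P)` lie in a subring `R` whose elements reducing to zero are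
nilpotent, and the reduction spans the matrices over `𝔽₂`, then `ρ` comes from a representation
over `R` through matrix units in the algebra generated by its image.
-/

set_option autoImplicit false

open Matrix

namespace Fermat.Agent.TwoAdic.Congruence

section Identities

variable {P : Type*} [CommRing P]

theorem mul_self_fin_two (X : Matrix (Fin 2) (Fin 2) P) :
    X * X = X.trace • X - X.det • (1 : Matrix (Fin 2) (Fin 2) P) := by
  ext i j
  fin_cases i <;> fin_cases j <;>
    simp [Matrix.mul_apply, Fin.sum_univ_two, Matrix.trace_fin_two, Matrix.det_fin_two] <;>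
      ring

theorem mul_mul_eq_trace_smul {e : Matrix (Fin 2) (Fin 2) P} (he : e.det = 0)
    (X : Matrix (Fin 2) (Fin 2) P) : e * X * e = (e * X).trace • e := by
  have key : e * X * e = (e * X).trace • e - e.det • X.adjugate := by
    ext i j
    fin_cases i <;> fin_cases j <;>
      simp [Matrix.mul_apply, Fin.sum_univ_two, Matrix.trace_fin_two, Matrix.det_fin_two,
        Matrix.adjugate_fin_two] <;> ring
  rw [key, he, zero_smul, sub_zero]

theorem eq_zero_of_mul_self_of_isNilpotent {S : Type*} [Ring S] {x : S} (h : x * x = x)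
    (hn : IsNilpotent x) : x = 0 := by
  obtain ⟨k, hk⟩ := hn
  have hpow : ∀ m : ℕ, x ^ (m + 1) = x := fun m => by
    induction m with
    | zero => rw [pow_one]
    | succ m ih => rw [pow_succ, ih, h]
  rw [← hpow k, pow_succ, hk, zero_mul]

theorem red_trace {Q : Type*} [CommRing Q] (π : P →+* Q) (X : Matrix (Fin 2) (Fin 2) P) :
    π X.trace = (X.map π).trace := by
  simp [Matrix.trace_fin_two]

end Identities

variable {P : Type} [CommRing P] {G : Type*} [Monoid G]

/-- Matrix units inside a set of matrices. -/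
structure MatrixUnits (S : Set (Matrix (Fin 2) (Fin 2) P)) (π : P →+* ZMod 2) where
  E : Fin 2 → Fin 2 → Matrix (Fin 2) (Fin 2) P
  mem : ∀ i j, E i j ∈ S
  mul : ∀ i j k l, E i j * E k l = if j = k then E i l else 0
  sum : E 0 0 + E 1 1 = 1
  det : (E 0 0).det = 0
  trE : ∀ i j, (E i j).trace = if i = j then 1 else 0
  redE : ∀ i j, (E i j).map π = Matrix.single i j 1

section Descent

variable (R : Subring P) (π : P →+* ZMod 2) (ρ : G →* Matrix (Fin 2) (Fin 2) P)
  (htr : ∀ σ, (ρ σ).trace ∈ R) (hnil : ∀ x ∈ R, π x = 0 → IsNilpotent x)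
  (hspan : ∀ X : Matrix (Fin 2) (Fin 2) (ZMod 2),
    X ∈ AddSubgroup.closure (Set.range fun σ => (ρ σ).map π))

/-- The algebra generated by the image of the representation. -/
def imageAlgebra : Subalgebra R (Matrix (Fin 2) (Fin 2) P) := Algebra.adjoin R (Set.range ρ)

variable {R π ρ}

include htr in
theorem trace_mem {X : Matrix (Fin 2) (Fin 2) P} (hX : X ∈ imageAlgebra R ρ) : X.trace ∈ R := by
  have hcl : Submonoid.closure (Set.range ρ) = MonoidHom.mrange ρ := by
    rw [← MonoidHom.coe_mrange, Submonoid.closure_eq]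
  change X ∈ Subalgebra.toSubmodule (imageAlgebra R ρ) at hX
  rw [imageAlgebra, Algebra.adjoin_eq_span, hcl] at hX
  induction hX using Submodule.span_induction with
  | mem x hx => obtain ⟨σ, rfl⟩ := hx; exact htr σ
  | zero => rw [Matrix.trace_zero]; exact zero_mem _
  | add x y _ _ hx hy => rw [Matrix.trace_add]; exact add_mem hx hy
  | smul c x _ hx =>
    rw [Subring.smul_def, Matrix.trace_smul, smul_eq_mul]
    exact mul_mem c.2 hx

include hnil in
theorem isUnit_of_red_eq_one {x : P} (hx : x ∈ R) (h : π x = 1) :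
    ∃ y ∈ R, x * y = 1 := by
  have hn : IsNilpotent (⟨x - 1, sub_mem hx (one_mem R)⟩ : R) :=
    (IsNilpotent.map_iff (f := R.subtype) Subtype.val_injective).mp
      (hnil _ (sub_mem hx (one_mem R)) (show π (x - 1) = 0 by rw [map_sub, h, map_one, sub_self]))
  have hu : IsUnit (⟨x, hx⟩ : R) := by
    have := hn.isUnit_one_add
    convert this using 1
    exact Subtype.ext (by simp)
  obtain ⟨u, hu⟩ := hu
  exact ⟨(u⁻¹ : Rˣ), (u⁻¹ : Rˣ).val.2, by
    have := congrArg Subtype.val u.mul_inv
    simpa [hu] using this⟩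

include hspan in
theorem exists_lift (X : Matrix (Fin 2) (Fin 2) (ZMod 2)) :
    ∃ Y ∈ imageAlgebra R ρ, Y.map π = X := by
  induction hspan X using AddSubgroup.closure_induction with
  | mem x hx => obtain ⟨σ, rfl⟩ := hx; exact ⟨ρ σ, Algebra.subset_adjoin ⟨σ, rfl⟩, rfl⟩
  | zero => exact ⟨0, zero_mem _, Matrix.map_zero _ (map_zero π)⟩
  | add x y _ _ hx hy =>
    obtain ⟨a, ha, rfl⟩ := hx
    obtain ⟨b, hb, rfl⟩ := hy
    exact ⟨a + b, add_mem ha hb, Matrix.map_add _ (map_add π) a b⟩
  | neg x _ hx =>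
    obtain ⟨a, ha, rfl⟩ := hx
    exact ⟨-a, neg_mem ha, Matrix.map_neg _ (map_neg π) a⟩

include htr hnil hspan in
theorem det_mem {X : Matrix (Fin 2) (Fin 2) P} (hX : X ∈ imageAlgebra R ρ) : X.det ∈ R := by
  obtain ⟨Y, hY, hYπ⟩ := exists_lift (R := R) hspan (Matrix.single 0 0 1)
  have htY : π Y.trace = 1 := by
    rw [red_trace, hYπ,
      Matrix.trace_single_eq_same]
  obtain ⟨u, hu, hu1⟩ := isUnit_of_red_eq_one hnil (trace_mem htr hY) htY
  have h : X.det = (X.trace • (X * Y) - X * X * Y).trace * u := by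
    rw [mul_self_fin_two X, sub_mul, smul_mul_assoc, smul_mul_assoc, one_mul, sub_sub_cancel,
      Matrix.trace_smul, smul_eq_mul, mul_assoc, hu1, mul_one]
  rw [h]
  refine mul_mem (trace_mem htr (sub_mem ?_ (mul_mem (mul_mem hX hX) hY))) hu
  exact Subalgebra.smul_mem _ (mul_mem hX hY) (⟨_, trace_mem htr hX⟩ : R)

include htr hnil hspan in
theorem isNilpotent_of_red_eq_zero {X : Matrix (Fin 2) (Fin 2) P} (hX : X ∈ imageAlgebra R ρ)
    (h : X.map π = 0) : IsNilpotent X := by
  have ht : π X.trace = 0 := by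
    rw [red_trace, h,
      Matrix.trace_zero]
  have hd : π X.det = 0 := by
    rw [RingHom.map_det, RingHom.mapMatrix_apply, h, Matrix.det_zero]
  have h2 : IsNilpotent (X * X) := by
    rw [mul_self_fin_two]
    refine Commute.isNilpotent_sub ?_ ?_ ?_
    · exact ((Commute.one_right X).smul_right _).smul_left _
    · obtain ⟨k, hk⟩ := hnil _ (trace_mem htr hX) ht
      exact ⟨k, by rw [smul_pow, hk, zero_smul]⟩
    · obtain ⟨k, hk⟩ := hnil _ (det_mem htr hnil hspan hX) hd
      exact ⟨k, by rw [smul_pow, hk, zero_smul]⟩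
  obtain ⟨k, hk⟩ := h2
  exact ⟨2 * k, by rw [pow_mul, pow_two, hk]⟩

include htr hnil hspan in
theorem eq_zero_of_mul_self {X : Matrix (Fin 2) (Fin 2) P} (hX : X ∈ imageAlgebra R ρ)
    (h2 : X * X = X) (h : X.map π = 0) : X = 0 :=
  eq_zero_of_mul_self_of_isNilpotent h2 (isNilpotent_of_red_eq_zero htr hnil hspan hX h)

include htr hnil hspan in
theorem exists_matrixUnits :
    Nonempty (MatrixUnits (imageAlgebra R ρ : Set (Matrix (Fin 2) (Fin 2) P)) π) := by
  let f : imageAlgebra R ρ →+* Matrix (Fin 2) (Fin 2) (ZMod 2) :=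
    (π.mapMatrix).comp (imageAlgebra R ρ).val.toRingHom
  have hker : ∀ x ∈ RingHom.ker f, IsNilpotent x := fun x hx =>
    (IsNilpotent.map_iff (f := (imageAlgebra R ρ).val) Subtype.val_injective).mp
      (isNilpotent_of_red_eq_zero htr hnil hspan x.2 hx)
  have hrange : Matrix.single 0 0 1 ∈ f.range := by
    obtain ⟨Y, hY, hYπ⟩ := exists_lift (R := R) hspan (Matrix.single 0 0 1)
    exact ⟨⟨Y, hY⟩, hYπ⟩
  obtain ⟨⟨e, heS⟩, he, heπ'⟩ := exists_isIdempotentElem_eq_of_ker_isNilpotent f hker _ hrange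
    (show IsIdempotentElem (Matrix.single (0 : Fin 2) (0 : Fin 2) (1 : ZMod 2)) from by
      simp [IsIdempotentElem])
  have heπ : e.map π = Matrix.single 0 0 1 := heπ'
  have hee : e * e = e := congrArg Subtype.val he
  have hed : e.det = 0 := by
    refine eq_zero_of_mul_self_of_isNilpotent (by rw [← Matrix.det_mul, hee])
      (hnil _ (det_mem htr hnil hspan heS) ?_)
    rw [RingHom.map_det, RingHom.mapMatrix_apply, heπ]
    simp [Matrix.det_fin_two]
  have het : e.trace = 1 := by
    have h0 : e.trace • e = e := by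
      have := mul_self_fin_two e
      rwa [hed, zero_smul, sub_zero, hee, eq_comm] at this
    have h1 : e.trace * e.trace = e.trace := by
      have := congrArg Matrix.trace h0
      rwa [Matrix.trace_smul, smul_eq_mul] at this
    have h2 : (1 - e.trace) * (1 - e.trace) = 1 - e.trace := by linear_combination h1
    have h3 : π (1 - e.trace) = 0 := by
      rw [map_sub, map_one, red_trace, heπ, Matrix.trace_single_eq_same,
        sub_self]
    exact (sub_eq_zero.mp (eq_zero_of_mul_self_of_isNilpotent h2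
      (hnil _ (sub_mem (one_mem R) (trace_mem htr heS)) h3))).symm
  obtain ⟨Y, hY, hYπ⟩ := exists_lift (R := R) hspan (Matrix.single 0 1 1)
  obtain ⟨Z, hZ, hZπ⟩ := exists_lift (R := R) hspan (Matrix.single 1 0 1)
  set a := e * Y * (1 - e) with ha
  set b' := (1 - e) * Z * e with hb'
  have haS : a ∈ imageAlgebra R ρ := mul_mem (mul_mem heS hY) (sub_mem (one_mem _) heS)
  have hb'S : b' ∈ imageAlgebra R ρ := mul_mem (mul_mem (sub_mem (one_mem _) heS) hZ) heS
  have h1e : (1 - e) * e = 0 := by rw [sub_mul, one_mul, hee, sub_self]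
  have he1 : e * (1 - e) = 0 := by rw [mul_sub, mul_one, hee, sub_self]
  have hea : e * a = a := by rw [ha, ← mul_assoc, ← mul_assoc, hee]
  have hae : a * e = 0 := by rw [ha, mul_assoc, h1e, mul_zero]
  have hb'e : b' * e = b' := by rw [hb', mul_assoc, hee]
  have heb' : e * b' = 0 := by rw [hb', ← mul_assoc, ← mul_assoc, he1, zero_mul, zero_mul]
  have h1π : (1 - e).map π = 1 - Matrix.single 0 0 1 := by
    rw [← RingHom.mapMatrix_apply, map_sub, map_one, RingHom.mapMatrix_apply, heπ]
  have haπ : a.map π = Matrix.single 0 1 1 := by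
    rw [ha, Matrix.map_mul, Matrix.map_mul, heπ, hYπ, h1π]
    decide
  have hb'π : b'.map π = Matrix.single 1 0 1 := by
    rw [hb', Matrix.map_mul, Matrix.map_mul, heπ, hZπ, h1π]
    decide
  set c := (a * b').trace with hc
  have hab' : a * b' = c • e := by
    have hfix : e * (a * b') * e = a * b' := by
      rw [← mul_assoc e, hea, mul_assoc, hb'e]
    rw [← hfix, mul_mul_eq_trace_smul hed, ← mul_assoc e, hea]
  have hcπ : π c = 1 := by
    rw [hc, red_trace, Matrix.map_mul, haπ,
      hb'π]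
    simp
  obtain ⟨u, hu, hu1⟩ := isUnit_of_red_eq_one hnil (trace_mem htr (mul_mem haS hb'S)) hcπ
  have huπ : π u = 1 := by
    have := congrArg π hu1
    rwa [map_mul, hcπ, one_mul, map_one] at this
  set b := u • b' with hb
  have hbS : b ∈ imageAlgebra R ρ := Subalgebra.smul_mem _ hb'S (⟨u, hu⟩ : R)
  have hab : a * b = e := by rw [hb, mul_smul_comm, hab', smul_smul, mul_comm u, hu1, one_smul]
  have hbe : b * e = b := by rw [hb, smul_mul_assoc, hb'e]
  have heb : e * b = 0 := by rw [hb, mul_smul_comm, heb', smul_zero]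
  have haa : a * a = 0 := by
    calc a * a = a * (e * a) := by rw [hea]
      _ = 0 := by rw [← mul_assoc, hae, zero_mul]
  have hbb : b * b = 0 := by
    calc b * b = b * e * b := by rw [hbe]
      _ = 0 := by rw [mul_assoc, heb, mul_zero]
  have hbπ : b.map π = Matrix.single 1 0 1 := by
    rw [hb]
    ext i j
    have := congrFun (congrFun hb'π i) j
    simp only [Matrix.map_apply] at this ⊢
    rw [Matrix.smul_apply, smul_eq_mul, map_mul, huπ, one_mul, this]
  set f1 := b * a with hf1
  have hef1 : e * f1 = 0 := by rw [hf1, ← mul_assoc, heb, zero_mul]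
  have hf1e : f1 * e = 0 := by rw [hf1, mul_assoc, hae, mul_zero]
  have haf1 : a * f1 = a := by rw [hf1, ← mul_assoc, hab, hea]
  have hf1a : f1 * a = 0 := by rw [hf1, mul_assoc, haa, mul_zero]
  have hbf1 : b * f1 = 0 := by rw [hf1, ← mul_assoc, hbb, zero_mul]
  have hf1b : f1 * b = b := by rw [hf1, mul_assoc, hab, hbe]
  have hf11 : f1 * f1 = f1 := by
    calc f1 * f1 = b * (a * f1) := by rw [hf1]; noncomm_ring
      _ = f1 := by rw [haf1]
  have hsum : e + f1 = 1 := by
    refine (sub_eq_zero.mp (eq_zero_of_mul_self htr hnil hspan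
      (sub_mem (one_mem _) (add_mem heS (mul_mem hbS haS))) ?_ ?_)).symm
    · rw [← hf1]
      simp only [sub_mul, mul_sub, add_mul, mul_add, one_mul, mul_one, hee, hef1, hf1e, hf11]
      abel
    · rw [← RingHom.mapMatrix_apply, map_sub, map_one, map_add, RingHom.mapMatrix_apply,
        RingHom.mapMatrix_apply, heπ, Matrix.map_mul, hbπ, haπ]
      decide
  refine ⟨⟨![![e, a], ![b, f1]], ?_, ?_, hsum, hed, ?_, ?_⟩⟩
  · intro i j
    fin_cases i <;> fin_cases j
    · exact heS
    · exact haS
    · exact hbS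
    · exact mul_mem hbS haS
  · intro i j k l
    fin_cases i <;> fin_cases j <;> fin_cases k <;> fin_cases l <;>
      simp [hee, hea, hae, heb, hbe, haa, hbb, hab, hef1, hf1e, haf1, hf1a, hbf1, hf1b, hf11,
        ← hf1]
  · intro i j
    fin_cases i <;> fin_cases j <;> simp only [Matrix.cons_val', Fin.isValue, Fin.zero_eta,
      Fin.mk_one, Matrix.cons_val_zero, Matrix.cons_val_one, if_true]
    · exact het
    · rw [← hea, Matrix.trace_mul_comm, hae, Matrix.trace_zero]; simp
    · rw [← hbe, Matrix.trace_mul_comm, heb, Matrix.trace_zero]; simp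
    · rw [hf1, Matrix.trace_mul_comm, hab]; exact het
  · intro i j
    fin_cases i <;> fin_cases j
    · exact heπ
    · exact haπ
    · exact hbπ
    · show f1.map π = _
      rw [hf1, Matrix.map_mul, hbπ, haπ]
      decide

variable {S : Set (Matrix (Fin 2) (Fin 2) P)} (u : MatrixUnits S π)

/-- The ring map given by matrix units. -/
def MatrixUnits.toHom (R : Subring P) :
    Matrix (Fin 2) (Fin 2) R →+* Matrix (Fin 2) (Fin 2) P where
  toFun X := ∑ i, ∑ j, (X i j : P) • u.E i j
  map_zero' := by simp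
  map_one' := by simp [Fin.sum_univ_two, u.sum]
  map_add' X Y := by simp [add_smul, Finset.sum_add_distrib]
  map_mul' X Y := by
    simp only [Fin.sum_univ_two, add_mul, mul_add, smul_mul_assoc, mul_smul_comm, u.mul,
      Matrix.mul_apply, AddMemClass.coe_add, MulMemClass.coe_mul]
    simp only [Fin.isValue, zero_ne_one, one_ne_zero, if_true, if_false, smul_zero]
    module

theorem MatrixUnits.trace_mul_toHom (R : Subring P) (X : Matrix (Fin 2) (Fin 2) R) (i j : Fin 2) :
    (u.E j i * u.toHom R X).trace = X i j := by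
  show (u.E j i * ∑ k, ∑ l, (X k l : P) • u.E k l).trace = _
  simp only [Finset.mul_sum, mul_smul_comm, Matrix.trace_sum, Matrix.trace_smul, u.mul]
  fin_cases i <;> fin_cases j <;> simp [Fin.sum_univ_two, u.trE]

theorem MatrixUnits.toHom_injective (R : Subring P) : Function.Injective (u.toHom R) := by
  intro X Y h
  ext i j
  exact (u.trace_mul_toHom R X i j).symm.trans (by rw [h]; exact u.trace_mul_toHom R Y i j)

theorem MatrixUnits.trace_toHom (R : Subring P) (X : Matrix (Fin 2) (Fin 2) R) :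
    (u.toHom R X).trace = (X.trace : P) := by
  rw [Matrix.trace_fin_two X, AddMemClass.coe_add, ← u.trace_mul_toHom R X 0 0,
    ← u.trace_mul_toHom R X 1 1, ← Matrix.trace_add, ← add_mul, u.sum, one_mul]

theorem MatrixUnits.toHom_smul_one (R : Subring P) (c : R) :
    u.toHom R (c • 1) = (c : P) • 1 := by
  show ∑ i, ∑ j, ((c • (1 : Matrix (Fin 2) (Fin 2) R)) i j : P) • u.E i j = _
  rw [← u.sum]
  simp [Fin.sum_univ_two, smul_add]

theorem MatrixUnits.det_toHom (R : Subring P) (X : Matrix (Fin 2) (Fin 2) R) :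
    (u.toHom R X).det = (X.det : P) := by
  have h := congrArg (u.toHom R) (mul_self_fin_two X)
  have hs : ∀ (c : R) (Y : Matrix (Fin 2) (Fin 2) R), c • Y = (c • 1) * Y := fun c Y => by
    rw [smul_mul_assoc, one_mul]
  rw [map_mul, map_sub, hs X.trace X, map_mul, u.toHom_smul_one, u.toHom_smul_one, smul_mul_assoc,
    one_mul, mul_self_fin_two, u.trace_toHom, sub_right_inj] at h
  simpa using congrFun (congrFun h 0) 0

theorem MatrixUnits.eq_sum (X : Matrix (Fin 2) (Fin 2) P) :
    X = ∑ i, ∑ j, (u.E j i * X).trace • u.E i j := by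
  have key : ∀ i j, u.E i i * X * u.E j j = (u.E j i * X).trace • u.E i j := fun i j => by
    have e1 : u.E i i = u.E i 0 * u.E 0 i := by rw [u.mul, if_pos rfl]
    have e2 : u.E j j = u.E j 0 * u.E 0 j := by rw [u.mul, if_pos rfl]
    have e3 : u.E 0 i * X * u.E j 0 = (u.E j i * X).trace • u.E 0 0 := by
      have hl : u.E 0 0 * u.E 0 i = u.E 0 i := by rw [u.mul, if_pos rfl]
      have hr : u.E j 0 * u.E 0 0 = u.E j 0 := by rw [u.mul, if_pos rfl]
      calc u.E 0 i * X * u.E j 0
          = u.E 0 0 * (u.E 0 i * X * u.E j 0) * u.E 0 0 := by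
            simp only [← mul_assoc, hl]
            simp only [mul_assoc, hr]
        _ = (u.E 0 0 * (u.E 0 i * X * u.E j 0)).trace • u.E 0 0 := mul_mul_eq_trace_smul u.det _
        _ = _ := by
            congr 1
            rw [← mul_assoc, ← mul_assoc, hl, Matrix.trace_mul_comm, ← mul_assoc, u.mul,
              if_pos rfl]
    calc u.E i i * X * u.E j j
        = u.E i 0 * (u.E 0 i * X * u.E j 0) * u.E 0 j := by rw [e1, e2]; noncomm_ring
      _ = (u.E j i * X).trace • (u.E i 0 * u.E 0 0 * u.E 0 j) := by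
          rw [e3, mul_smul_comm, smul_mul_assoc]
      _ = _ := by rw [u.mul, if_pos rfl, u.mul, if_pos rfl]
  conv_lhs => rw [show X = (u.E 0 0 + u.E 1 1) * X * (u.E 0 0 + u.E 1 1) by rw [u.sum, one_mul,
    mul_one]]
  simp only [Fin.sum_univ_two, ← key]
  noncomm_ring

end Descent

/-- **Descent to the ring of traces.** -/
theorem exists_descent (R : Subring P) (π : P →+* ZMod 2) (ρ : G →* Matrix (Fin 2) (Fin 2) P)
    (htr : ∀ σ, (ρ σ).trace ∈ R) (hnil : ∀ x ∈ R, π x = 0 → IsNilpotent x)
    (hspan : ∀ X : Matrix (Fin 2) (Fin 2) (ZMod 2),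
      X ∈ AddSubgroup.closure (Set.range fun σ => (ρ σ).map π)) :
    ∃ (r : G →* Matrix (Fin 2) (Fin 2) R)
      (Ψ : Matrix (Fin 2) (Fin 2) R →+* Matrix (Fin 2) (Fin 2) P),
      Function.Injective Ψ ∧ (∀ c : R, Ψ (c • 1) = (c : P) • 1) ∧
      (∀ X, (Ψ X).trace = (X.trace : P)) ∧ (∀ X, (Ψ X).det = (X.det : P)) ∧
      (∀ σ, Ψ (r σ) = ρ σ) ∧ ∀ σ, (r σ).map (fun x => π (x : P)) = (ρ σ).map π := by
  obtain ⟨u⟩ := exists_matrixUnits htr hnil hspan
  let r₀ : G → Matrix (Fin 2) (Fin 2) R := fun σ i j =>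
    ⟨(u.E j i * ρ σ).trace, trace_mem htr (mul_mem (u.mem j i) (Algebra.subset_adjoin ⟨σ, rfl⟩))⟩
  have hΨ : ∀ σ, u.toHom R (r₀ σ) = ρ σ := fun σ => (u.eq_sum (ρ σ)).symm
  refine ⟨⟨⟨r₀, u.toHom_injective R (by rw [hΨ, map_one, map_one])⟩,
      fun σ τ => u.toHom_injective R (by rw [map_mul, hΨ, hΨ, hΨ, map_mul])⟩,
    u.toHom R, u.toHom_injective R, u.toHom_smul_one R, u.trace_toHom R, u.det_toHom R, hΨ,
    fun σ => ?_⟩
  ext i j
  show π (u.E j i * ρ σ).trace = _
  rw [red_trace,
    Matrix.map_mul, u.redE]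
  fin_cases i <;> fin_cases j <;> simp [Matrix.trace_fin_two, Matrix.mul_apply, Fin.sum_univ_two]

end Fermat.Agent.TwoAdic.Congruence
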