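import Fermat.Agent.TwoAdic.Congruence.Flat
import Fermat.Agent.TwoAdic.Congruence.Carayol

/-!
# The dihedral datum modulo two of the ring of coefficients

The ambient representation descends to the ring of coefficients; modulo `2` it is a dihedral
datum, so the dihedral bound limits the number of generators of the ring.
-/

set_option autoImplicit false
set_option synthInstance.maxHeartbeats 400000

noncomputable section

open WeierstrassCurve CongruenceSubgroup

namespace Fermat.Agent.TwoAdic.Congruence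

open Arith (QBar GQ)
open Forms (ZBar)

theorem mem_closure_det_one : ∀ a b : Fin 2, ∃ X Y : M2 (ZMod 2),
    X.det = 1 ∧ Y.det = 1 ∧ Matrix.single a b 1 = X + Y := by
  intro a b
  fin_cases a <;> fin_cases b
  · exact ⟨!![1, 1; 1, 0], !![0, 1; 1, 0], by decide, by decide, by decide⟩
  · exact ⟨1, !![1, 1; 0, 1], by decide, by decide, by decide⟩
  · exact ⟨1, !![1, 0; 1, 1], by decide, by decide, by decide⟩
  · exact ⟨!![0, 1; 1, 1], !![0, 1; 1, 0], by decide, by decide, by decide⟩

theorem isAuxPrime_one {W : WeierstrassCurve ℤ} {hΔ : W.Δ ≠ 0} {n q : ℕ}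
    (h : IsAuxPrime W hΔ (n + 1) q) : IsAuxPrime W hΔ 1 q where
  prime := h.prime
  ne_two := h.ne_two
  good := h.good
  inert := h.inert
  q_mod := (Int.natCast_dvd_natCast.mpr (pow_dvd_pow 2 (by omega))).trans h.q_mod
  ap_mod := (Int.natCast_dvd_natCast.mpr (pow_dvd_pow 2 (by omega))).trans h.ap_mod
  frob_invol := h.frob_invol

/-- A unipotent element of trace zero in characteristic two is an involution. -/
theorem mul_self_eq_one {A : Type} [CommRing A] (h2 : (2 : A) = 0) {X : M2 A}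
    (ht : X.trace = 0) (hd : X.det = 1) : X * X = 1 := by
  rw [mul_self_fin_two, ht, hd, zero_smul, one_smul, zero_sub]
  ext i j
  rw [Matrix.neg_apply, neg_eq_iff_add_eq_zero, ← two_mul, h2, zero_mul]

variable {W : WeierstrassCurve ℤ} {hW : IsClassC W} {𝔪 : Ideal ZBar} {n : ℕ} {Q : Finset ℕ}
  (S : System W hW 𝔪 n Q) (k : ℕ)

theorem System.rep_resid (σ : GQ) :
    (S.repAmbient k σ).map (S.resid k) = rhoBar W hW.Δ_ne_zero σ := by
  rw [rhoBar_eq_map hW.Δ_ne_zero (n + 1) (by omega) σ]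
  rfl

theorem System.span_resid (hC : CurveRep W hW.Δ_ne_zero) (X : M2 (ZMod 2)) :
    X ∈ AddSubgroup.closure (Set.range fun σ => (S.repAmbient k σ).map (S.resid k)) := by
  have hdet : ∀ Y : M2 (ZMod 2), Y.det = 1 →
      Y ∈ AddSubgroup.closure (Set.range fun σ => (S.repAmbient k σ).map (S.resid k)) :=
    fun Y hY => by
      obtain ⟨σ, hσ⟩ := hC.full Y hY
      exact AddSubgroup.subset_closure ⟨σ, (S.rep_resid k σ).trans hσ⟩
  rw [Matrix.matrix_eq_sum_single X]
  refine AddSubgroup.sum_mem _ fun a _ => AddSubgroup.sum_mem _ fun b _ => ?_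
  rcases (show ∀ z : ZMod 2, z = 0 ∨ z = 1 by decide) (X a b) with h | h <;> rw [h]
  · rw [Matrix.single_zero]; exact zero_mem _
  · obtain ⟨Y, Z, hY, hZ, e⟩ := mem_closure_det_one a b
    rw [e]; exact add_mem (hdet Y hY) (hdet Z hZ)

theorem System.exists_datum (hC : CurveRep W hW.Δ_ne_zero) (hk : n + 1 ≤ k) (hPeu : PeuProperty) :
    ∃ (A : Type) (_ : CommRing A) (_ : IsLocalRing A) (_ : Finite A) (π : A →+* ZMod 2)
      (r : GQ →* M2 A) (eps : ℕ → A) (alpha : A),
      IsDihedralDatum W hW.Δ_ne_zero Q π r eps alpha ∧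
        Nat.card A = Nat.card (S.coeffs k ⧸ Ideal.span {(2 : S.coeffs k)}) := by
  classical
  obtain ⟨r, Ψ, hΨ, hΨc, hΨt, hΨd, hΨr, hres⟩ := exists_descent (S.coeffs k) (S.resid k)
    (S.repAmbient k) (S.trace_mem k hC) (S.isNilpotent_of_resid k) (S.span_resid k hC)
  obtain ⟨α, u, hα, hu, huα, hopTwo, hTwo⟩ := S.exists_alpha k hC
  set I := Ideal.span {(2 : S.coeffs k)} with hI
  set mk := Ideal.Quotient.mk I
  have h2A : (2 : S.coeffs k ⧸ I) = 0 := by
    rw [← map_ofNat mk 2]
    exact Ideal.Quotient.eq_zero_iff_mem.mpr (Ideal.mem_span_singleton_self _)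
  let π : S.coeffs k ⧸ I →+* ZMod 2 := Ideal.Quotient.lift I
    ((S.resid k).comp (S.coeffs k).subtype) fun x hx => by
      obtain ⟨y, rfl⟩ := Ideal.mem_span_singleton'.mp hx
      rw [map_mul, map_ofNat, show (2 : ZMod 2) = 0 from rfl, mul_zero]
  have : Nontrivial (S.coeffs k ⧸ I) := π.domain_nontrivial
  have : IsLocalRing (S.coeffs k ⧸ I) :=
    IsLocalRing.of_surjective' mk Ideal.Quotient.mk_surjective
  have : Finite (S.coeffs k ⧸ I) := Quotient.finite _
  let rA := modIdeal r I
  have hrA : ∀ σ, rA σ = mk.mapMatrix (r σ) := fun σ => rfl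
  have htr : ∀ σ, ((r σ).trace : Ambient S k) = (S.repAmbient k σ).trace := fun σ => by
    rw [← hΨt, hΨr]
  have hdet : ∀ σ, ((r σ).det : Ambient S k) = (S.repAmbient k σ).det := fun σ => by
    rw [← hΨd, hΨr]
  have trA : ∀ (σ : GQ) (c : S.coeffs k), (S.repAmbient k σ).trace = c →
      (rA σ).trace = mk c := fun σ c h => by
    rw [hrA, trace_mapMatrix, show (r σ).trace = c from Subtype.ext (by rw [htr, h])]
  have detA : ∀ σ, (rA σ).det = 1 := fun σ => by
    obtain ⟨c, hc⟩ := exists_cyclotomic σ k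
    obtain ⟨m, hm⟩ := odd_of_cyclotomic (by omega) hc
    rw [hrA, ← RingHom.map_det, show (r σ).det = (c : S.coeffs k) from Subtype.ext (by
      rw [hdet, S.det_cyclotomic k hC hk hc]; simp), map_natCast, hm]
    push_cast
    rw [h2A, zero_mul, zero_add]
  have hprod : ∀ (σ τ : GQ) (c d : S.coeffs k), (S.repAmbient k τ - (c : Ambient S k) • 1) *
      (S.repAmbient k σ - (d : Ambient S k) • 1) = 0 →
      (rA τ - mk c • 1) * (rA σ - mk d • 1) = 0 := fun σ τ c d h => by
    have h0 : (r τ - c • 1) * (r σ - d • 1) = 0 := hΨ (by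
      rw [map_mul, map_sub, map_sub, hΨc, hΨc, hΨr, hΨr, h, map_zero])
    rw [hrA, hrA, ← mapMatrix_smul_one, ← mapMatrix_smul_one, ← map_sub, ← map_sub, ← map_mul,
      h0, map_zero]
  have hunr : ∀ τ, S.repAmbient k τ = 1 → rA τ = 1 := fun τ h => by
    rw [hrA, show r τ = 1 from hΨ (by rw [hΨr, h, map_one]), map_one]
  -- the generators
  let f : Ops W Q →+* S.coeffs k ⧸ I := mk.comp (S.phi k).rangeRestrict
  let eps : ℕ → S.coeffs k ⧸ I := fun q =>
    if hq : q ∈ Q then f (MvPolynomial.X (Sum.inr ⟨q, hq⟩)) else 0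
  have heps : ∀ q (hq : q ∈ Q), eps q = f (MvPolynomial.X (Sum.inr ⟨q, hq⟩)) := fun q hq =>
    dif_pos hq
  let alpha : S.coeffs k ⧸ I := mk ⟨α, hα⟩
  refine ⟨S.coeffs k ⧸ I, inferInstance, inferInstance, inferInstance, π, rA, eps, alpha,
    { two_eq_zero := h2A, residual := ?_, finiteLevel := ?_, det := detA, generated := ?_,
      unramified := ?_, bad := ?_, aux := ?_, two := ?_, peu := ?_ }, rfl⟩
  · intro σ
    ext a b
    exact congrFun (congrFun ((hres σ).trans (S.rep_resid k σ)) a) b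
  · obtain ⟨M, hM, hM'⟩ := S.isFiniteLevel_repAmbient k hC
    exact ⟨M, hM, fun σ hσ => hunr σ (hM' σ hσ)⟩
  · refine (Subring.eq_top_iff' _).mpr fun x => ?_
    obtain ⟨y, rfl⟩ := Ideal.Quotient.mk_surjective x
    obtain ⟨v, rfl⟩ : ∃ v, (S.phi k).rangeRestrict v = y :=
      RingHom.rangeRestrict_surjective _ y
    change f v ∈ _
    induction v using ops_induction with
    | hC c =>
      rw [show f (MvPolynomial.C c) = (c : S.coeffs k ⧸ I) from eq_intCast (f.comp MvPolynomial.C) c]
      exact intCast_mem _ c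
    | hadd p q hp hq => rw [map_add]; exact add_mem hp hq
    | hX p v hp =>
      rw [map_mul]
      refine mul_mem hp ?_
      rcases v with ⟨ℓ, hℓ, hℓL⟩ | ⟨q, hq⟩
      · by_cases h2 : ℓ = 2
        · subst h2
          have : f (MvPolynomial.X (Sum.inl ⟨2, hℓ, hℓL⟩)) = alpha := by
            show mk _ = mk _
            rw [show (S.phi k).rangeRestrict (MvPolynomial.X (Sum.inl ⟨2, hℓ, hℓL⟩)) =
              (⟨α, hα⟩ : S.coeffs k) + 2 * ⟨u, hu⟩ from Subtype.ext hopTwo, map_add, map_mul,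
              map_ofNat, h2A, zero_mul, add_zero]
          rw [this]
          exact Subring.subset_closure (Or.inr rfl)
        · obtain ⟨A, hA⟩ := Arith.exists_liesOverPrime hℓ
          obtain ⟨σ, hσ⟩ := Arith.exists_isFrobeniusAt hA hℓ
          refine Subring.subset_closure (Or.inl (Or.inl ⟨σ, ?_⟩))
          exact trA σ ⟨_, ⟨_, rfl⟩⟩ (S.trace_det_frobenius k hC hℓ h2 hℓL hA hσ).1
      · exact Subring.subset_closure (Or.inl (Or.inr ⟨q, hq, heps q hq⟩))
  · intro ℓ hℓ h2 hgood hQ P hP τ hτ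
    exact hunr τ (S.unramified k hC hℓ h2 hgood hQ hP hτ)
  · intro ℓ hℓ hd P hP τ hτ
    obtain ⟨h1, h2'⟩ := S.bad_conditions k hC hℓ hd hP hτ
    refine ⟨by rw [trA τ 2 (by rw [h2']; rfl), map_ofNat, h2A], ?_⟩
    have := hprod τ τ 1 1 (by rw [OneMemClass.coe_one, one_smul, ← pow_two, h1])
    rwa [map_one, one_smul, ← pow_two] at this
  · intro q hq P hP σ hσ
    obtain ⟨h1, h3⟩ := S.aux_conditions k hC ⟨q, hq⟩ hP hσ
    let c : S.coeffs k := (S.phi k).rangeRestrict (MvPolynomial.X (Sum.inr ⟨q, hq⟩))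
    have hce : mk c = eps q := (heps q hq).symm
    have hodd : (1 : S.coeffs k ⧸ I) + (q : S.coeffs k ⧸ I) = 0 := by
      obtain ⟨m, hm⟩ := (S.aux q hq).prime.odd_of_ne_two (S.aux q hq).ne_two
      rw [hm]; push_cast
      rw [h2A, zero_mul, zero_add, ← two_mul, mul_one]
      exact h2A
    have ht : (rA σ).trace = 0 := by
      rw [trA σ (c * (1 + (q : S.coeffs k))) (by rw [h1]; push_cast; rfl), map_mul, map_add,
        map_one, map_natCast, hodd, mul_zero]
    have hsq : eps q * eps q = 1 := by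
      rw [← hce, ← map_mul, ← map_one mk]
      congr 1
      refine Subtype.ext (S.ext_proj k (fun i => ?_) ?_)
      · show S.projG k i (S.phi k _ * S.phi k _) = S.projG k i 1
        rw [map_mul, map_one, S.projG_phi]
        rcases (S.sign_spec i ⟨q, hq⟩).1 with h | h <;>
          simp [System.coeffHom, System.val, h]
      · show S.projE k (S.phi k _ * S.phi k _) = S.projE k 1
        rw [map_mul, map_one, S.projE_phi]
        simp [evE, valE]
    refine ⟨ht, ?_, fun τ hτ => ?_⟩
    · simp only [sub_mul, mul_sub, smul_mul_assoc, mul_smul_comm, one_mul, mul_one,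
        mul_self_eq_one h2A ht (detA σ)]
      ext a b
      simp only [Matrix.sub_apply, Matrix.smul_apply, Matrix.zero_apply, smul_eq_mul]
      linear_combination ((1 : M2 (S.coeffs k ⧸ I)) a b - eps q * rA σ a b) * h2A
        + (1 : M2 (S.coeffs k ⧸ I)) a b * hsq
    · have := hprod σ τ 1 c (by rw [OneMemClass.coe_one, one_smul]; exact h3 τ hτ)
      rwa [map_one, one_smul, hce] at this
  · intro P hP σ hσ
    obtain ⟨h1, h2⟩ := hTwo P hP σ hσ
    obtain ⟨c, hc⟩ := exists_cyclotomic σ k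
    refine ⟨mk ⟨u, hu⟩, by rw [← map_mul, ← map_one mk]; exact congrArg mk (Subtype.ext huα),
      ?_, fun τ hτ => ?_⟩
    · have e := trA σ (⟨α, hα⟩ + (r σ).det * ⟨u, hu⟩) (by rw [h1]; push_cast; rw [hdet])
      rw [e, map_add, map_mul, RingHom.map_det, ← hrA, detA, one_mul]
    · obtain ⟨t1, t2, t3⟩ := h2 τ hτ
      have htτ : (rA τ).trace = 0 := by
        rw [trA τ (1 + (r τ).det) (by rw [t1]; push_cast; rw [hdet]), map_add, map_one,
          RingHom.map_det, ← hrA, detA, ← two_mul, mul_one]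
        exact h2A
      refine ⟨htτ, ?_, fun τ' hτ' => ?_⟩
      · have := hprod σ τ (r τ).det ⟨α, hα⟩ (by rw [hdet]; exact t2)
        rwa [RingHom.map_det, ← hrA, detA, one_smul] at this
      · have := hprod τ' τ (r τ).det 1 (by
          rw [hdet, OneMemClass.coe_one, one_smul]; exact t3 τ' hτ')
        rwa [RingHom.map_det, ← hrA, detA, one_smul, map_one, one_smul] at this
  · intro P hP σ hσ
    obtain ⟨φ, hφ⟩ := Arith.exists_isFrobeniusAt hP Nat.prime_two
    obtain ⟨-, h2⟩ := hTwo P hP φ hφ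
    have : Finite (MatMod rA) := inferInstanceAs (Finite (Fin 2 → S.coeffs k ⧸ I))
    have hfix := hPeu (MatMod rA) (fun x => funext fun a => by
        show 2 • (show Fin 2 → S.coeffs k ⧸ I from x) a = 0
        rw [two_nsmul, ← two_mul, h2A, zero_mul])
      (S.exists_galOrder_modIdeal k hC r Ψ hΨ hΨr I) P hP (fun τ hτ => ⟨1, fun x => ?_⟩) σ hσ
    · refine Matrix.ext fun a b => ?_
      have := congrFun (hfix (show MatMod rA from Pi.single b 1)) a
      rw [MatMod.smul_def, Matrix.mulVec_single_one] at this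
      refine this.trans ?_
      simp [Matrix.one_apply, Pi.single_apply]
    · rw [MatMod.smul_def, pow_one, pow_two, map_mul, mul_self_eq_one h2A ?_ (detA τ)]
      · exact Matrix.one_mulVec _
      · rw [trA τ (1 + (r τ).det) (by rw [(h2 τ hτ).1]; push_cast; rw [hdet]), map_add, map_one,
          RingHom.map_det, ← hrA, detA, ← two_mul, mul_one]
        exact h2A

/-- The dihedral bound on the ring of coefficients modulo two. -/
theorem System.card_coeffs_le (hC : CurveRep W hW.Δ_ne_zero) (hk : n + 1 ≤ k)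
    (hPeu : PeuProperty) (hD : DihedralBound) {B : ℕ}
    (hB : UnramifiedCharBound W.conductorLevel B) (hsel : SelmerTrivial W hW.Δ_ne_zero Q) :
    Nat.card (S.coeffs k ⧸ Ideal.span {(2 : S.coeffs k)}) ≤ 2 ^ (B * 2 ^ (Q.card + 1)) := by
  obtain ⟨A, i₁, i₂, i₃, π, r, eps, alpha, hdat, hcard⟩ := S.exists_datum k hC hk hPeu
  rw [← hcard]
  exact hD W hW Q B (fun q hq => isAuxPrime_one (S.aux q hq)) hsel hB A π r eps alpha hdat

end Fermat.Agent.TwoAdic.Congruence
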