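import Mathlib.GroupTheory.OrderOfElement
import Mathlib.GroupTheory.QuotientGroup.Finite
import Mathlib.Data.ZMod.QuotientGroup
import Mathlib.GroupTheory.SpecificGroups.Cyclic

/-!
# Elements of maximal order split off cyclic factors
-/

set_option autoImplicit false

namespace Fermat.Agent.TwoAdic.Congruence

/-- In a finite abelian group killed by `2 ^ j`, an element of order `2 ^ j` has a retraction. -/
theorem exists_addHom_one (j : ℕ) : ∀ (c : ℕ) (G : Type) [AddCommGroup G] [Finite G],
    Nat.card G ≤ c → (∀ x : G, (2 ^ j) • x = 0) → ∀ g : G, addOrderOf g = 2 ^ j →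
      ∃ l : G →+ ZMod (2 ^ j), l g = 1 := by
  intro c
  induction c with
  | zero =>
    intro G _ _ hc
    exact absurd hc (Nat.not_le.mpr Nat.card_pos)
  | succ c ih =>
    intro G _ _ hc hG g hg
    by_cases htop : ∀ x : G, x ∈ AddSubgroup.zmultiples g
    · let e := zmodAddCyclicAddEquiv (G := G) ⟨⟨g, htop⟩⟩
      have hcard : Nat.card G = 2 ^ j := by
        rw [← hg]
        exact (addOrderOf_eq_card_of_forall_mem_zmultiples htop).symm
      let f : ZMod (2 ^ j) →+ G := ZMod.lift (2 ^ j) ⟨zmultiplesHom G g, by
        show ((2 ^ j : ℕ) : ℤ) • g = 0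
        rw [natCast_zsmul, hG]⟩
      have hf1 : f 1 = g := by
        have := ZMod.lift_coe (2 ^ j) ⟨zmultiplesHom G g, by
          show ((2 ^ j : ℕ) : ℤ) • g = 0
          rw [natCast_zsmul, hG]⟩ 1
        simpa using this
      have hf : Function.Bijective f := by
        have : NeZero (2 ^ j) := ⟨pow_ne_zero j two_ne_zero⟩
        refine Function.Surjective.bijective_of_nat_card_le (fun x => ?_) ?_
        · obtain ⟨k, rfl⟩ := htop x
          exact ⟨(k : ZMod (2 ^ j)), by rw [← zsmul_one, map_zsmul, hf1]⟩
        · rw [Nat.card_zmod, hcard]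
      refine ⟨(AddEquiv.ofBijective f hf).symm.toAddMonoidHom, ?_⟩
      show (AddEquiv.ofBijective f hf).symm g = 1
      rw [AddEquiv.symm_apply_eq]
      exact hf1.symm
    · obtain ⟨x₀, hx₀⟩ := not_forall.mp htop
      -- climb down to a class of order two
      obtain ⟨x, hx, hx2⟩ : ∃ x, x ∉ AddSubgroup.zmultiples g ∧
          2 • x ∈ AddSubgroup.zmultiples g := by
        by_contra h
        simp only [not_exists, not_and] at h
        have : ∀ i : ℕ, 2 ^ i • x₀ ∉ AddSubgroup.zmultiples g := fun i => by
          induction i with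
          | zero => simpa using hx₀
          | succ i ih => rw [pow_succ', mul_nsmul']; exact h _ ih
        exact this j (by rw [hG]; exact zero_mem _)
      obtain ⟨k, hk⟩ := hx2
      replace hk : k • g = 2 • x := hk
      obtain ⟨y, hyk⟩ : ∃ y, k = 2 * y ∨ j = 0 := by
        rcases Int.even_or_odd k with ⟨y, hy⟩ | hodd
        · exact ⟨y, Or.inl (by omega)⟩
        · refine ⟨0, Or.inr ?_⟩
          by_contra hj
          obtain ⟨i, rfl⟩ := Nat.exists_eq_succ_of_ne_zero hj
          have h1 : (2 ^ i : ℤ) • (k • g) = 0 := by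
            rw [hk, ← natCast_zsmul, smul_smul]
            have := hG x
            rw [← natCast_zsmul] at this
            rw [pow_succ] at this
            exact_mod_cast this
          rw [smul_smul, ← addOrderOf_dvd_iff_zsmul_eq_zero, hg] at h1
          push_cast [pow_succ] at h1
          exact Int.not_even_iff_odd.mpr hodd
            (even_iff_two_dvd.mpr (Int.dvd_of_mul_dvd_mul_left (pow_ne_zero i (by norm_num)) h1))
      rcases hyk with rfl | rfl
      swap
      · exact absurd (hG x₀) (by simpa using fun h : x₀ = 0 => hx₀ (h ▸ zero_mem _))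
      set z := x - y • g with hz
      have hz2 : 2 • z = 0 := by
        rw [hz, smul_sub, ← natCast_zsmul (y • g), smul_smul, ← hk]
        simp
      have hzg : z ∉ AddSubgroup.zmultiples g := fun h => hx (by
        have := add_mem h (AddSubgroup.zsmul_mem_zmultiples g y)
        rwa [hz, sub_add_cancel] at this)
      let K := AddSubgroup.zmultiples z
      have hKcase : ∀ w ∈ K, w = 0 ∨ w = z := by
        rintro w ⟨r, rfl⟩
        rcases Int.even_or_odd r with ⟨s, rfl⟩ | ⟨s, rfl⟩
        · left
          show (s + s) • z = 0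
          rw [← two_mul, mul_comm, mul_smul, show ((2 : ℤ) • z) = 0 by exact_mod_cast hz2, smul_zero]
        · right
          show (2 * s + 1) • z = z
          rw [add_smul, one_smul, mul_comm, mul_smul,
            show ((2 : ℤ) • z) = 0 by exact_mod_cast hz2, smul_zero, zero_add]
      have hlt : Nat.card (G ⧸ K) ≤ c := by
        have h1 := AddSubgroup.card_eq_card_quotient_mul_card_addSubgroup K
        have hz0 : z ≠ 0 := fun h => hzg (h ▸ zero_mem _)
        have h2 : 1 < Nat.card K := by
          rw [Nat.card_zmultiples]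
          rcases (Nat.dvd_prime Nat.prime_two).mp (addOrderOf_dvd_of_nsmul_eq_zero hz2) with h | h
          · exact absurd (AddMonoid.addOrderOf_eq_one_iff.mp h) hz0
          · omega
        have h3 : 0 < Nat.card (G ⧸ K) := Nat.card_pos
        have h4 := lt_mul_of_one_lt_right h3 h2
        omega
      have hord : addOrderOf (QuotientAddGroup.mk' K g) = 2 ^ j := by
        refine Nat.dvd_antisymm (hg ▸ addOrderOf_map_dvd _ _) (hg ▸ addOrderOf_dvd_of_nsmul_eq_zero ?_)
        have h := addOrderOf_nsmul_eq_zero (QuotientAddGroup.mk' K g)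
        rw [← map_nsmul, QuotientAddGroup.mk'_apply, QuotientAddGroup.eq_zero_iff] at h
        rcases hKcase _ h with h | h
        · exact h
        · exact absurd (h ▸ AddSubgroup.nsmul_mem_zmultiples g _) hzg
      obtain ⟨l, hl⟩ := ih (G ⧸ K) hlt (fun w => by
        induction w using QuotientAddGroup.induction_on with
        | H w => rw [← QuotientAddGroup.mk_nsmul, hG]; rfl) _ hord
      exact ⟨l.comp (QuotientAddGroup.mk' K), hl⟩

end Fermat.Agent.TwoAdic.Congruence
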