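import Fermat.Agent.GaloisReps.Models
import Fermat.Agent.GaloisReps.EigenPlane
import Fermat.Agent.ConductorLevel.Eigen
import Fermat.Agent.TwoAdic.Congruence.Retraction
import Mathlib.RingTheory.DiscreteValuationRing.Basic

/-!
# Eigen points of the Jacobian from a congruence of eigenvalues

An eigenform whose coefficients are congruent modulo `2 ^ j` to integers `a ℓ`, in a discrete
valuation ring over `2`, gives a point of `J₀(L)` of order `2 ^ m`, `m ≤ j`, on which the Hecke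
operators act by the `a ℓ`.
-/

set_option autoImplicit false
set_option synthInstance.maxHeartbeats 400000

noncomputable section

open ModularCurve CongruenceSubgroup ModularFormClass
open Fermat.Agent.GaloisReps Fermat.Agent.HeckeDuality

namespace Fermat.Agent.TwoAdic.Congruence

/-- A nonzero vector over a principal ideal local domain is a multiple of a unimodular one. -/
theorem exists_unimodular {O : Type} [CommRing O] [IsDomain O] [IsLocalRing O]
    [IsPrincipalIdealRing O] {d : ℕ} {v : Fin d → O} (hv : v ≠ 0) :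
    ∃ (c : O) (w : Fin d → O), c ≠ 0 ∧ v = c • w ∧ ∃ i, IsUnit (w i) := by
  obtain ⟨c, hc⟩ := (IsPrincipalIdealRing.principal (Ideal.span (Set.range v))).principal
  rw [← Ideal.span] at hc
  have hdvd : ∀ i, ∃ wi, v i = c * wi := fun i => Ideal.mem_span_singleton.mp
    (hc ▸ Ideal.subset_span ⟨i, rfl⟩)
  choose w hw using hdvd
  have hc0 : c ≠ 0 := fun h => hv (funext fun i => by rw [hw i, h, zero_mul]; rfl)
  refine ⟨c, w, hc0, funext hw, ?_⟩
  obtain ⟨s, hs⟩ := Ideal.mem_span_range_iff_exists_fun.mp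
    (hc ▸ Ideal.mem_span_singleton_self c : c ∈ Ideal.span (Set.range v))
  have h1 : ∑ i, s i * w i = 1 := by
    refine mul_left_cancel₀ hc0 ?_
    rw [mul_one, Finset.mul_sum]
    refine (Finset.sum_congr rfl fun i _ => ?_).trans hs
    rw [hw i]; ring
  by_contra h
  simp only [not_exists] at h
  have : (1 : O) ∈ IsLocalRing.maximalIdeal O :=
    h1 ▸ sum_mem fun i _ => Ideal.mul_mem_left _ _ (h i)
  exact this isUnit_one

variable {L : ℕ} [NeZero L]

/-- The character of an eigenform in its coefficient ring. -/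
theorem exists_coeffChar {g : CuspForm (Gamma0 L) 2} (hg : g.IsNormalizedEigenform) :
    ∃ θ : FullHecke L →+* Algebra.adjoin ℤ (Set.range fun n : ℕ => qCoeff g n),
      ∀ (ℓ : ℕ) (hℓ : ℓ.Prime),
        θ (heckeOp L 2 ℓ hℓ) = ⟨qCoeff g ℓ, Algebra.subset_adjoin ⟨ℓ, rfl⟩⟩ := by
  have hle : ∀ t, ConductorLevel.eigenChar hg ∅ t ∈
      Algebra.adjoin ℤ (Set.range fun n : ℕ => qCoeff g n) := fun t =>
    ConductorLevel.eigenChar_range_le hg
      (Algebra.adjoin ℤ (Set.range fun n : ℕ => qCoeff g n))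
      (fun ℓ _ _ => Algebra.subset_adjoin ⟨ℓ, rfl⟩) ⟨t, rfl⟩
  refine ⟨(ConductorLevel.eigenChar hg (∅ : Set ℕ)).codRestrict _ hle, fun ℓ hℓ => Subtype.ext ?_⟩
  show qCoeff ((heckeOp L 2 ℓ hℓ).1 g) 1 = _
  rw [ConductorLevel.heckeOp_eigen hg hℓ, coeff_smul, hg.qCoeff_one, mul_one]

/-- A congruence of coefficients gives an eigen point. -/
theorem exists_eigenPoint {g : CuspForm (Gamma0 L) 2} (hg : g.IsNormalizedEigenform)
    {O : Type} [CommRing O] [IsDomain O] [IsDiscreteValuationRing O] [CharZero O]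
    [hfin : Finite (IsLocalRing.ResidueField O)] (h2 : (2 : O) ∈ IsLocalRing.maximalIdeal O)
    (coeff : Algebra.adjoin ℤ (Set.range fun n : ℕ => qCoeff g n) →+* O)
    (a : ℕ → ℤ) (T : Set ℕ) {j m : ℕ} (hmj : m ≤ j)
    (h : ∀ ℓ ∈ T, ℓ.Prime →
      (2 : O) ^ j ∣ coeff ⟨qCoeff g ℓ, Algebra.subset_adjoin ⟨ℓ, rfl⟩⟩ - (a ℓ : O)) :
    ∃ x : JZero L, addOrderOf x = 2 ^ m ∧
      ∀ (ℓ : ℕ) (hℓ : ℓ.Prime), ℓ ∈ T → heckeOperatorBar L ⟨ℓ, hℓ⟩ x = a ℓ • x := by
  classical
  have : Fact (Nat.Prime 2) := ⟨Nat.prime_two⟩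
  obtain ⟨θ₀, hθ₀⟩ := exists_coeffChar hg
  let θ : FullHecke L →+* O := coeff.comp θ₀
  set D := heckeGaloisModel L 2
  let E := torsionIso L 2 (conjProperty L)
  -- a unimodular integral eigenvector
  have hrk := D.finrank_eigenspace_domain θ
  have hne : GaloisReps.eigenspace D.hecke θ ≠ ⊥ := fun hb => by
    rw [hb, finrank_bot] at hrk
    omega
  obtain ⟨v, hv, hv0⟩ := Submodule.exists_mem_ne_zero_of_ne_bot hne
  obtain ⟨c, w, hc, rfl, i₀, hi₀⟩ := exists_unimodular hv0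
  have hw : ∀ (ℓ : ℕ) (hℓ : ℓ.Prime),
      ((opMat L ℓ hℓ).map (Int.castRingHom O)).mulVec w =
        coeff ⟨qCoeff g ℓ, Algebra.subset_adjoin ⟨ℓ, rfl⟩⟩ • w := fun ℓ hℓ => by
    have h1 := (GaloisReps.mem_eigenspace _ _ _).mp hv (heckeOp L 2 ℓ hℓ)
    rw [Matrix.mulVec_smul, show θ (heckeOp L 2 ℓ hℓ) = coeff (θ₀ (heckeOp L 2 ℓ hℓ)) from rfl,
      hθ₀ ℓ hℓ, smul_comm, show matIn D.hecke O (heckeOp L 2 ℓ hℓ) =
        (latticeMat L (heckeOp L 2 ℓ hℓ)).map (Int.castRingHom O) from rfl,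
      latticeMat_heckeOp] at h1
    exact smul_right_injective _ hc h1
  -- an additive functional modulo `2 ^ j`
  set I := Ideal.span {(2 : O) ^ j}
  have : Finite (O ⧸ I) := by
    obtain ⟨ϖ, hϖ⟩ := IsDiscreteValuationRing.exists_irreducible O
    obtain ⟨e, he⟩ := IsDiscreteValuationRing.associated_pow_irreducible
      (pow_ne_zero j (two_ne_zero (α := O))) hϖ
    have hI : I = IsLocalRing.maximalIdeal O ^ e := by
      rw [hϖ.maximalIdeal_eq, Ideal.span_singleton_pow]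
      exact Ideal.span_singleton_eq_span_singleton.mpr he
    rw [hI]
    have : Finite (O ⧸ IsLocalRing.maximalIdeal O) := hfin
    exact Ideal.finite_quotient_pow (IsNoetherian.noetherian _) e
  have hkill : ∀ x : O ⧸ I, (2 ^ j) • x = 0 := fun x => by
    obtain ⟨y, rfl⟩ := Ideal.Quotient.mk_surjective x
    rw [← map_nsmul, Ideal.Quotient.eq_zero_iff_mem, nsmul_eq_mul]
    push_cast
    exact Ideal.mul_mem_right _ _ (Ideal.mem_span_singleton_self _)
  have hord : addOrderOf (1 : O ⧸ I) = 2 ^ j := by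
    rcases j with - | i
    · exact Nat.eq_one_of_dvd_one (by simpa using addOrderOf_dvd_of_nsmul_eq_zero (hkill 1))
    · have : Fact (Nat.Prime 2) := ⟨Nat.prime_two⟩
      refine addOrderOf_eq_prime_pow (p := 2) (fun hh => ?_) (hkill 1)
      rw [nsmul_eq_mul, mul_one, ← map_natCast (Ideal.Quotient.mk I), Ideal.Quotient.eq_zero_iff_mem,
        Ideal.mem_span_singleton] at hh
      push_cast at hh
      obtain ⟨y, hy⟩ := hh
      rw [pow_succ, mul_assoc] at hy
      exact h2 (IsUnit.of_mul_eq_one y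
        (mul_left_cancel₀ (pow_ne_zero i (two_ne_zero (α := O))) ((mul_one _).trans hy)).symm)
  obtain ⟨l, hl⟩ := exists_addHom_one j (Nat.card (O ⧸ I)) (O ⧸ I) le_rfl hkill 1 hord
  obtain ⟨u, hu⟩ := hi₀
  let F : O →+ ZMod (2 ^ j) :=
    (l.comp (Ideal.Quotient.mk I).toAddMonoidHom).comp (AddMonoidHom.mulLeft (↑u⁻¹ : O))
  let y : Fin (2 * Gamma0.genus L) → ZMod (2 ^ j) := fun i => F (w i)
  have hy0 : y i₀ = 1 := by
    show l (Ideal.Quotient.mk I ((↑u⁻¹ : O) * w i₀)) = 1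
    rw [← hu, Units.inv_mul, map_one, hl]
  have hy : ∀ (ℓ : ℕ) (hℓ : ℓ.Prime), ℓ ∈ T →
      ((opMat L ℓ hℓ).map (Int.castRingHom (ZMod (2 ^ j)))).mulVec y = a ℓ • y := fun ℓ hℓ hT => by
    funext i
    have hFz : ∀ (z : ℤ) (x : O), F ((z : O) * x) = (z : ZMod (2 ^ j)) * F x := fun z x => by
      rw [← zsmul_eq_mul, map_zsmul, zsmul_eq_mul]
    have h1 : F (((opMat L ℓ hℓ).map (Int.castRingHom O)).mulVec w i) =
        ((opMat L ℓ hℓ).map (Int.castRingHom (ZMod (2 ^ j)))).mulVec y i := by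
      simp only [Matrix.mulVec, dotProduct, map_sum, Matrix.map_apply, eq_intCast, hFz, y]
    obtain ⟨r, hr⟩ := h ℓ hT hℓ
    have hr' : Ideal.Quotient.mk I ((↑u⁻¹ : O) * ((2 : O) ^ j * (r * w i))) = 0 :=
      Ideal.Quotient.eq_zero_iff_mem.mpr
        (Ideal.mul_mem_left _ _ (Ideal.mul_mem_right _ _ (Ideal.mem_span_singleton_self _)))
    rw [← h1, hw ℓ hℓ, Pi.smul_apply, smul_eq_mul, sub_eq_iff_eq_add.mp hr, add_mul, map_add,
      mul_assoc, hFz, Pi.smul_apply, zsmul_eq_mul]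
    show l (Ideal.Quotient.mk I ((↑u⁻¹ : O) * ((2 : O) ^ j * (r * w i)))) + _ = _
    rw [hr', map_zero, zero_add]
  -- the point
  set x₁ : JTors L 2 j := (E.psi j).symm y
  have hx₁ : addOrderOf (x₁ : JZero L) = 2 ^ j := by
    have hy1 : addOrderOf y = 2 ^ j := by
      refine Nat.dvd_antisymm (addOrderOf_dvd_of_nsmul_eq_zero (funext fun i => ?_)) ?_
      · rw [Pi.smul_apply, nsmul_eq_mul, ZMod.natCast_self, zero_mul]; rfl
      · have hd := addOrderOf_map_dvd (Pi.evalAddMonoidHom (fun _ => ZMod (2 ^ j)) i₀) y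
        rw [Pi.evalAddMonoidHom_apply, hy0, ZMod.addOrderOf_one] at hd
        exact hd
    rw [AddSubgroup.addOrderOf_coe]
    exact (addOrderOf_injective (E.psi j).symm.toAddMonoidHom (E.psi j).symm.injective y).trans hy1
  refine ⟨2 ^ (j - m) • (x₁ : JZero L), ?_, fun ℓ hℓ hT => ?_⟩
  · rw [addOrderOf_nsmul' _ (pow_ne_zero _ two_ne_zero), hx₁,
      Nat.gcd_eq_right (pow_dvd_pow 2 (Nat.sub_le j m)), Nat.pow_div (Nat.sub_le j m) two_pos,
      Nat.sub_sub_self hmj]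
  · have hT' : heckeTors j ⟨ℓ, hℓ⟩ x₁ = a ℓ • x₁ := by
      refine (E.psi j).injective ?_
      rw [← E.mat_mulVec, E.mat_heckeTors, map_zsmul, AddEquiv.apply_symm_apply]
      exact hy ℓ hℓ hT
    rw [map_nsmul, show heckeOperatorBar L ⟨ℓ, hℓ⟩ (x₁ : JZero L) = a ℓ • (x₁ : JZero L) from
      congrArg Subtype.val hT', ← natCast_zsmul, smul_smul, ← natCast_zsmul (x₁ : JZero L),
      smul_smul, mul_comm]

end Fermat.Agent.TwoAdic.Congruence
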