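import Fermat.Agent.TwoAdic.Congruence.Rep

/-!
# The Galois order on the module of the ambient representation
-/

set_option autoImplicit false
set_option synthInstance.maxHeartbeats 400000

noncomputable section

open WeierstrassCurve CongruenceSubgroup

namespace Fermat.Agent.TwoAdic.Congruence

open Arith (QBar GQ)
open Forms (ZBar)
open FiniteFlat (GalOrder)

/-- A finite product of modules with Galois orders has one. -/
theorem exists_galOrder_pi {M₀ : Type} [AddCommGroup M₀] [DistribMulAction GQ M₀]
    (h₀ : Nonempty (GalOrder 2 M₀)) :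
    ∀ (m : ℕ) (M : Fin m → Type) [∀ i, AddCommGroup (M i)] [∀ i, DistribMulAction GQ (M i)],
      (∀ i, Nonempty (GalOrder 2 (M i))) → Nonempty (GalOrder 2 (M₀ × ∀ i, M i)) := by
  intro m
  induction m with
  | zero =>
    intro M _ _ _
    obtain ⟨O⟩ := h₀
    exact ⟨O.restrict (AddMonoidHom.fst _ _)
      (fun x y h => Prod.ext h (funext fun i => i.elim0)) fun σ x => rfl⟩
  | succ m ih =>
    intro M _ _ hM
    obtain ⟨O⟩ := ih (fun i => M i.succ) fun i => hM i.succ
    obtain ⟨O'⟩ := hM 0
    refine ⟨(O.prod O').restrict (AddMonoidHom.mk' (fun x => ((x.1, fun i => x.2 i.succ), x.2 0))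
      fun x y => rfl) (fun x y h => ?_) fun σ x => rfl⟩
    simp only [AddMonoidHom.mk'_apply, Prod.mk.injEq] at h
    refine Prod.ext h.1.1 (funext fun i => ?_)
    induction i using Fin.cases with
    | zero => exact h.2
    | succ i => exact congrFun h.1.2 i

variable {W : WeierstrassCurve ℤ} {hW : IsClassC W} {𝔪 : Ideal ZBar} {n : ℕ} {Q : Finset ℕ}
  (S : System W hW 𝔪 n Q) (k : ℕ)

theorem MatMod.smul_def {A : Type} [CommRing A] (r : GQ →* M2 A) (σ : GQ) (v : MatMod r) :
    (σ • v : MatMod r) = (r σ).mulVec v := rfl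

theorem System.exists_galOrder_ambient (hC : CurveRep W hW.Δ_ne_zero) :
    Nonempty (GalOrder 2 (MatMod (S.repAmbient k))) := by
  let e := (Fintype.equivFin S.ι).symm
  obtain ⟨O⟩ := exists_galOrder_pi (hC.flat (n + 1)) (Fintype.card S.ι)
    (fun j => MatMod (modIdeal (S.rep (e j)).r (Ideal.span {(2 : (S.rep (e j)).O) ^ k})))
    fun j => (S.rep (e j)).flat k
  let fst' : ∀ i, MatMod (S.repAmbient k) →+
      MatMod (modIdeal (S.rep i).r (Ideal.span {(2 : (S.rep i).O) ^ k})) := fun i =>
    AddMonoidHom.mk' (fun v a => S.projG k i ((show Fin 2 → Ambient S k from v) a))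
      fun v w => funext fun a => map_add _ _ _
  let snd' : MatMod (S.repAmbient k) →+ MatMod (rhoPow W hW.Δ_ne_zero (n + 1)) :=
    AddMonoidHom.mk' (fun v a => S.projE k ((show Fin 2 → Ambient S k from v) a))
      fun v w => funext fun a => map_add _ _ _
  refine ⟨O.restrict (snd'.prod (AddMonoidHom.pi fun j => fst' (e j))) (fun v w h => ?_)
    fun σ v => Prod.ext ?_ (funext fun j => ?_)⟩
  · refine funext fun a => S.ext_proj k (fun i => ?_) (congrFun (congrArg Prod.fst h) a)
    obtain ⟨j, rfl⟩ := e.surjective i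
    exact congrFun (congrFun (congrArg Prod.snd h) j) a
  · funext a
    show S.projE k ((S.repAmbient k σ).mulVec (show Fin 2 → Ambient S k from v) a) = _
    rw [RingHom.map_mulVec]
    exact congrFun (congrArg (fun X => Matrix.mulVec X
      (S.projE k ∘ (show Fin 2 → Ambient S k from v))) (S.projE_entries k σ)) a
  · funext a
    show S.projG k (e j) ((S.repAmbient k σ).mulVec (show Fin 2 → Ambient S k from v) a) = _
    rw [RingHom.map_mulVec]
    exact congrFun (congrArg (fun X => Matrix.mulVec X
      (S.projG k (e j) ∘ (show Fin 2 → Ambient S k from v))) (S.projG_entries k (e j) σ)) a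

/-- A representation over a subring conjugate to the ambient one has an order modulo any ideal. -/
theorem System.exists_galOrder_modIdeal (hC : CurveRep W hW.Δ_ne_zero)
    (r : GQ →* M2 (S.coeffs k)) (Ψ : M2 (S.coeffs k) →+* M2 (Ambient S k))
    (hΨ : Function.Injective Ψ) (hr : ∀ σ, Ψ (r σ) = S.repAmbient k σ)
    (I : Ideal (S.coeffs k)) : Nonempty (GalOrder 2 (MatMod (modIdeal r I))) := by
  obtain ⟨O⟩ := S.exists_galOrder_ambient k hC
  let col : MatMod r →+ M2 (S.coeffs k) := AddMonoidHom.mk'
    (fun v => Matrix.of fun a b => if b = 0 then (show Fin 2 → S.coeffs k from v) a else 0)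
    fun v w => Matrix.ext fun a b => by fin_cases b <;> simp [MatMod] <;> rfl
  have hcol : ∀ σ v, col (σ • v) = r σ * col v := fun σ v => Matrix.ext fun a b => by
    fin_cases b <;> fin_cases a <;> simp [col, MatMod.smul_def, Matrix.mul_apply]
  let colAt : Fin 2 → (M2 (Ambient S k) →+ MatMod (S.repAmbient k)) := fun b =>
    AddMonoidHom.mk' (fun X a => X a b) fun X Y => rfl
  let emb : MatMod r →+ MatMod (S.repAmbient k) × MatMod (S.repAmbient k) :=
    ((colAt 0).prod (colAt 1)).comp (Ψ.toAddMonoidHom.comp col)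
  have hinj : Function.Injective emb := fun v w h => by
    have h0 := congrArg Prod.fst h
    have h1 := congrArg Prod.snd h
    have h2 : Ψ (col v) = Ψ (col w) := Matrix.ext fun a b => by
      fin_cases b
      · exact congrFun h0 a
      · exact congrFun h1 a
    funext a
    exact congrFun (congrFun (hΨ h2) a) 0
  have hσ : ∀ (σ : GQ) v, emb (σ • v) = σ • emb v := fun σ v => by
    show (colAt 0 (Ψ (col (σ • v))), colAt 1 (Ψ (col (σ • v)))) = _
    rw [hcol, map_mul, hr]
    refine Prod.ext ?_ ?_ <;>
    · funext a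
      rfl
  have : Finite (MatMod r) := inferInstanceAs (Finite (Fin 2 → S.coeffs k))
  refine ⟨((O.prod O).restrict emb hinj hσ).quotient
    (AddMonoidHom.mk' (fun v a => Ideal.Quotient.mk I ((show Fin 2 → S.coeffs k from v) a))
      fun v w => funext fun a => map_add _ _ _)
    (fun v => ⟨fun a => Quotient.out ((show Fin 2 → (S.coeffs k) ⧸ I from v) a),
      funext fun a => Quotient.out_eq _⟩) fun σ v => funext fun a => ?_⟩
  exact RingHom.map_mulVec (Ideal.Quotient.mk I) (r σ) _ a

end Fermat.Agent.TwoAdic.Congruence
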