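import Fermat.Agent.TwoAdic.Congruence.Selection
import Fermat.Agent.TwoAdic.Congruence.EigenPoint

/-!
# The congruence input of the two-adic modularity theorem
-/

set_option autoImplicit false
set_option synthInstance.maxHeartbeats 400000

noncomputable section

open WeierstrassCurve CongruenceSubgroup ModularFormClass ModularCurve

namespace Fermat.Agent.TwoAdic.Congruence

open Arith (QBar GQ)
open Forms (ZBar)

theorem squarefree_level {W : WeierstrassCurve ℤ} {hW : IsClassC W} {n : ℕ} {Q : Finset ℕ}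
    (haux : ∀ q ∈ Q, IsAuxPrime W hW.Δ_ne_zero n q) : Squarefree (level W Q) := by
  induction Q using Finset.induction with
  | empty => simpa [level] using W.squarefree_conductorLevel
  | insert q Q hq ih =>
    have hp := (haux q (Finset.mem_insert_self q Q)).prime
    rw [level, Finset.prod_insert hq, mul_left_comm]
    refine (Nat.squarefree_mul_iff).mpr ⟨(Nat.Coprime.symm ?_), hp.squarefree,
      ih fun r hr => haux r (Finset.mem_insert_of_mem hr)⟩
    refine (Nat.Coprime.symm ((Nat.Prime.coprime_iff_not_dvd hp).mpr fun h => ?_))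
    rcases hp.dvd_mul.mp h with h | h
    · exact (haux q (Finset.mem_insert_self q Q)).good
        ((W.prime_dvd_conductorLevel_iff hW.Δ_ne_zero hp).mp h)
    · obtain ⟨r, hr, h⟩ := (Prime.dvd_finsetProd_iff hp.prime _).mp h
      exact hq ((Nat.prime_dvd_prime_iff_eq hp
        (haux r (Finset.mem_insert_of_mem hr)).prime).mp h ▸ hr)

theorem one_le_of_unramifiedCharBound {N B : ℕ} (hB : UnramifiedCharBound N B) : 1 ≤ B := by
  refine le_trans ?_ (hB (Multiplicative (ZMod 1)) (IsPGroup.of_card (n := 0) (by simp)) 1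
    ⟨⊥, inferInstance, fun σ _ => rfl⟩ fun ℓ _ A _ σ _ => rfl)
  exact Nat.card_pos

/-- **The congruence input.** -/
theorem congruenceInput (hrep : NewformRepInputTwo) (hcurve : CurveRepInput)
    (hPeu : PeuProperty) (hD : DihedralBound) : CongruenceInput := by
  classical
  intro W hW B abar hB habar habar2 n Q _ haux hsel 𝔪 hmax h2 F hF hFg
  have : 𝔪.IsPrime := hmax.isPrime
  set d := B * 2 ^ (Q.card + 1) with hd
  have hdpos : 0 < d := Nat.mul_pos (one_le_of_unramifiedCharBound hB) (by positivity)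
  obtain ⟨F', hF', hF'card⟩ := Finset.exists_subset_card_eq hF
  have hodd : Odd (level W Q) := by
    refine Nat.odd_iff.mpr (Nat.two_dvd_ne_zero.mp fun h => ?_)
    rcases Nat.prime_two.dvd_mul.mp h with h | h
    · exact Residual.not_two_dvd_conductorLevel hW h
    · obtain ⟨q, hq, h⟩ := (Prime.dvd_finsetProd_iff Nat.prime_two.prime _).mp h
      exact (haux q hq).ne_two
        ((Nat.prime_dvd_prime_iff_eq Nat.prime_two (haux q hq).prime).mp h).symm
  have hnot2 : ¬ 2 ∣ level W Q := hodd.not_two_dvd_nat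
  have hcongW : ∀ g ∈ F', ∀ ℓ : ℕ, ℓ.Prime → ¬ ℓ ∣ level W Q →
      ∃ a : ZBar, (a : ℂ) = qCoeff g ℓ ∧ a - ((W.apOfModel ℓ : ℤ) : ZBar) ∈ 𝔪 := by
    intro g hg ℓ hℓ hℓL
    obtain ⟨a, ha, ha'⟩ := (hFg g (hF' hg)).2 ℓ hℓ hℓL
    refine ⟨a, ha, ?_⟩
    have hab : (abar ℓ : ZMod 2) = (W.apOfModel ℓ : ZMod 2) := by
      by_cases h : ℓ = 2
      · subst h
        obtain ⟨m, hm⟩ := hW.ap_two_odd
        rw [habar2, hm]
        push_cast
        rw [show (2 : ZMod 2) = 0 from rfl, zero_mul, zero_add]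
      · exact habar ℓ hℓ h (good_of_not_dvd_level (hW := hW) hℓ hℓL)
    obtain ⟨c, hc⟩ : (2 : ℤ) ∣ ((abar ℓ).val : ℤ) - W.apOfModel ℓ := by
      have h : ((((abar ℓ).val : ℤ) - W.apOfModel ℓ : ℤ) : ZMod 2) = 0 := by
        rw [Int.cast_sub, Int.cast_natCast, ZMod.natCast_zmod_val, hab, sub_self]
      exact_mod_cast (ZMod.intCast_zmod_eq_zero_iff_dvd _ 2).mp h
    have e : a - ((W.apOfModel ℓ : ℤ) : ZBar) =
        (a - ((abar ℓ).val : ZBar)) + 2 * (c : ZBar) := by
      have := congrArg (Int.cast : ℤ → ZBar) hc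
      push_cast at this
      linear_combination this
    rw [e]
    exact add_mem ha' (Ideal.mul_mem_right _ _ h2)
  have hord : ∀ g ∈ F', ∀ y : ZBar, (y : ℂ) = qCoeff g 2 → y ∉ 𝔪 := fun g hg y hy hym => by
    obtain ⟨a, ha, ha'⟩ := hcongW g hg 2 Nat.prime_two hnot2
    have hay : a = y := Subtype.ext (ha.trans hy.symm)
    obtain ⟨m, hm⟩ := hW.ap_two_odd
    refine hmax.ne_top ((Ideal.eq_top_iff_one _).mpr ?_)
    have e : (1 : ZBar) = y - (a - ((W.apOfModel 2 : ℤ) : ZBar)) - 2 * (m : ZBar) := by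
      rw [hay, hm]; push_cast; ring
    rw [e]
    exact sub_mem (sub_mem hym ha') (Ideal.mul_mem_right _ _ h2)
  let S : System W hW 𝔪 n Q :=
    { ι := {g // g ∈ F'}
      g := fun g => g.1
      newform := fun g => (hFg g.1 (hF' g.2)).1
      inj := Subtype.val_injective
      rep := fun g => (hrep (level W Q) (squarefree_level (hW := hW) haux) hodd g.1 (hFg g.1 (hF' g.2)).1 𝔪
        hmax h2 (hord g.1 g.2) W abar hW habar (hFg g.1 (hF' g.2)).2).some
      cong := fun g => hcongW g.1 g.2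
      aux := haux
      two_mem := h2 }
  have hcard : Fintype.card S.ι = d := (Fintype.card_coe F').trans hF'card
  have : Nonempty S.ι := Fintype.card_pos_iff.mp (hcard ▸ hdpos)
  set j := (n + 1) / d with hj
  obtain ⟨i, hi⟩ := S.exists_congruent_index (hcurve W hW) hPeu hD hB hsel hcard.ge (j := j)
    (hcard ▸ Nat.div_mul_le_self _ _)
  have hmj : n / d ^ 2 ≤ j := calc
    n / d ^ 2 ≤ n / d := Nat.div_le_div_left (Nat.le_self_pow two_ne_zero d) hdpos
    _ ≤ (n + 1) / d := Nat.div_le_div_right n.le_succ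
  have hdvd : ∀ (ℓ : ℕ), ℓ ∈ {ℓ : ℕ | ℓ.Prime ∧ ℓ ∉ insert 2 (level W Q).primeFactors} →
      ℓ.Prime → (2 : (S.rep i).O) ^ j ∣ (S.rep i).coeff
        ⟨qCoeff (S.g i) ℓ, Algebra.subset_adjoin ⟨ℓ, rfl⟩⟩ - (W.apOfModel ℓ : (S.rep i).O) := by
    intro ℓ hℓT hℓ
    have hℓL : ¬ ℓ ∣ level W Q := fun h => hℓT.2 (Finset.mem_insert_of_mem
      (Nat.mem_primeFactors.mpr ⟨hℓ, h, NeZero.ne _⟩))
    obtain ⟨v, hv, hveq⟩ := hi (MvPolynomial.X (Sum.inl ⟨ℓ, hℓ, hℓL⟩))
    have h0 : (2 : (S.rep i).O) ^ j ∣ (S.rep i).coeff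
        (⟨qCoeff (S.g i) ℓ, Algebra.subset_adjoin ⟨ℓ, rfl⟩⟩ - (W.apOfModel ℓ : coeffRing (S.g i))) := by
      refine (S.coeff_mk_eq_zero_iff i j _).mpr ⟨v, hv, ?_⟩
      rw [← hveq]
      simp [System.gHom, System.coeffHom, System.val, evE, valE]
    rwa [map_sub, map_intCast] at h0
  obtain ⟨x, hx, hxT⟩ := exists_eigenPoint (L := level W Q) (g := S.g i) (S.newform i).1
    (O := (S.rep i).O) (S.rep i).two_mem (S.rep i).coeff (fun ℓ => W.apOfModel ℓ)
    {ℓ | ℓ.Prime ∧ ℓ ∉ insert 2 (level W Q).primeFactors} hmj hdvd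
  exact ⟨x, hx, fun ℓ hℓ hℓS => hxT ℓ hℓ ⟨hℓ, hℓS⟩⟩

end Fermat.Agent.TwoAdic.Congruence
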