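import Fermat.Agent.TwoAdic.Forms.Iface
import Mathlib.RingTheory.IntegralClosure.IsIntegralClosure.Basic

/-!
# The local ring of a place of the algebraic integers inside `ℂ`
-/

set_option autoImplicit false

noncomputable section

namespace Fermat.Agent.TwoAdic.Congruence

open Forms (ZBar)

variable (𝔪 : Ideal ZBar) [h𝔪 : 𝔪.IsPrime]

/-- The fractions of algebraic integers with denominator outside `𝔪`. -/
def placeRing : Subring ℂ where
  carrier := {x | ∃ s t : ZBar, s ∉ 𝔪 ∧ (s : ℂ) * x = (t : ℂ)}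
  mul_mem' := by
    rintro x y ⟨s, t, hs, h⟩ ⟨s', t', hs', h'⟩
    refine ⟨s * s', t * t', fun hm => (h𝔪.mem_or_mem hm).elim hs hs', ?_⟩
    push_cast
    rw [← h, ← h']
    ring
  one_mem' := ⟨1, 1, fun hm => h𝔪.ne_top ((Ideal.eq_top_iff_one _).mpr hm), by simp⟩
  add_mem' := by
    rintro x y ⟨s, t, hs, h⟩ ⟨s', t', hs', h'⟩
    refine ⟨s * s', t * s' + t' * s, fun hm => (h𝔪.mem_or_mem hm).elim hs hs', ?_⟩
    push_cast
    rw [← h, ← h']
    ring
  zero_mem' := ⟨1, 0, fun hm => h𝔪.ne_top ((Ideal.eq_top_iff_one _).mpr hm), by simp⟩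
  neg_mem' := by
    rintro x ⟨s, t, hs, h⟩
    exact ⟨s, -t, hs, by push_cast; rw [← h, mul_neg]⟩

variable {𝔪}

theorem mem_placeRing {x : ℂ} :
    x ∈ placeRing 𝔪 ↔ ∃ s t : ZBar, s ∉ 𝔪 ∧ (s : ℂ) * x = (t : ℂ) := Iff.rfl

theorem zbar_mem_placeRing (x : ZBar) : (x : ℂ) ∈ placeRing 𝔪 :=
  ⟨1, x, fun hm => h𝔪.ne_top ((Ideal.eq_top_iff_one _).mpr hm), by simp⟩

theorem ne_zero_of_notMem {s : ZBar} (hs : s ∉ 𝔪) : (s : ℂ) ≠ 0 := fun h => by
  have : s = 0 := Subtype.ext (by simpa using h)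
  exact hs (this ▸ zero_mem _)

theorem exists_mul_eq_iff {x y : ℂ} : (∃ v ∈ placeRing 𝔪, x = y * v) ↔
    ∃ s t : ZBar, s ∉ 𝔪 ∧ (s : ℂ) * x = (t : ℂ) * y := by
  constructor
  · rintro ⟨v, ⟨s, t, hs, h⟩, rfl⟩
    exact ⟨s, t, hs, by rw [← h]; ring⟩
  · rintro ⟨s, t, hs, h⟩
    refine ⟨(t : ℂ) / (s : ℂ), ⟨s, t, hs, mul_div_cancel₀ _ (ne_zero_of_notMem hs)⟩, ?_⟩
    rw [mul_div_assoc', eq_div_iff (ne_zero_of_notMem hs), mul_comm x, h, mul_comm]

/-- A nonzero algebraic integer divides a power of `2` in the local ring of a place over `2`. -/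
theorem exists_mul_eq_two_pow (h2 : (2 : ZBar) ∈ 𝔪) {x : ℂ} (hx : IsIntegral ℤ x) (hx0 : x ≠ 0) :
    ∃ (e : ℕ), ∃ v ∈ placeRing 𝔪, x * v = 2 ^ e := by
  set p := minpoly ℤ x with hp
  have hc0 : p.coeff 0 ≠ 0 := fun h0 => by
    have hX : p = Polynomial.X * p.divX := by
      conv_lhs => rw [← Polynomial.X_mul_divX_add p, h0, map_zero, add_zero]
    have hu := ((minpoly.irreducible hx).isUnit_or_isUnit hX).resolve_left Polynomial.not_isUnit_X
    have h := congrArg (Polynomial.aeval x) hX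
    rw [minpoly.aeval, map_mul, Polynomial.aeval_X, eq_comm, mul_eq_zero] at h
    exact h.elim hx0 (hu.map (Polynomial.aeval x)).ne_zero
  have haev : Polynomial.aeval x p = 0 := minpoly.aeval ℤ x
  rw [← Polynomial.X_mul_divX_add p, map_add, map_mul, Polynomial.aeval_X,
    Polynomial.aeval_C] at haev
  have hq : IsIntegral ℤ (Polynomial.aeval x p.divX) := by
    have hmem : Polynomial.aeval x p.divX ∈ Algebra.adjoin ℤ {x} :=
      Polynomial.aeval_mem_adjoin_singleton ℤ x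
    exact adjoin_le_integralClosure hx hmem
  obtain ⟨e, m, hm, hem⟩ : ∃ (e : ℕ) (m : ℤ), Odd m ∧ p.coeff 0 = 2 ^ e * m := by
    obtain ⟨e, m, hm, h⟩ := Nat.exists_eq_two_pow_mul_odd (Int.natAbs_ne_zero.mpr hc0)
    rcases Int.natAbs_eq (p.coeff 0) with h' | h'
    · exact ⟨e, m, by exact_mod_cast hm, by rw [h', h]; push_cast; ring⟩
    · refine ⟨e, -(m : ℤ), by rw [odd_neg]; exact_mod_cast hm, by rw [h', h]; push_cast; ring⟩
  have hmnot : (m : ZBar) ∉ 𝔪 := fun hmem => by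
    obtain ⟨r, hr⟩ := hm
    refine h𝔪.ne_top ((Ideal.eq_top_iff_one _).mpr ?_)
    have h1 : (1 : ZBar) = (m : ZBar) - 2 * (r : ZBar) := by rw [hr]; push_cast; ring
    rw [h1]
    exact sub_mem hmem (Ideal.mul_mem_right _ _ h2)
  refine ⟨e, -(Polynomial.aeval x p.divX) / ((m : ZBar) : ℂ),
    ⟨(m : ZBar), -⟨_, hq⟩, hmnot, ?_⟩, ?_⟩
  · rw [mul_div_cancel₀ _ (ne_zero_of_notMem hmnot)]
    rfl
  · rw [mul_div_assoc', div_eq_iff (ne_zero_of_notMem hmnot)]
    rw [hem] at haev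
    simp only [map_mul, map_pow, map_ofNat, algebraMap_int_eq, eq_intCast] at haev
    push_cast at haev ⊢
    linear_combination -haev

end Fermat.Agent.TwoAdic.Congruence
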