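import Fermat.Agent.TwoAdic.Congruence.Setup
import Fermat.Agent.TwoAdic.Congruence.Curve
import Fermat.Agent.TwoAdic.Residual.Level
import Fermat.Agent.GaloisReps.Attach
import Mathlib.Dynamics.Newton

/-!
# The representation in the ambient ring

`repAmbient` combines the representations of the newforms modulo `2 ^ k` and of the curve modulo
`2 ^ (n + 1)`; its traces lie in the ring of coefficients and it satisfies the local conditions
with one unit root at `2` in that ring.
-/

set_option autoImplicit false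
set_option synthInstance.maxHeartbeats 400000

noncomputable section

open WeierstrassCurve CongruenceSubgroup ModularFormClass

namespace Fermat.Agent.TwoAdic.Congruence

open Arith (QBar GQ)
open Forms (ZBar)

theorem trace_mapMatrix {A B : Type} [CommRing A] [CommRing B] (f : A →+* B) (X : M2 A) :
    (f.mapMatrix X).trace = f X.trace := by
  simp [Matrix.trace_fin_two]

theorem mapMatrix_smul_one {A B : Type} [CommRing A] [CommRing B] (f : A →+* B) (c : A) :
    f.mapMatrix (c • (1 : M2 A)) = f c • (1 : M2 B) := by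
  ext i j
  simp [Matrix.one_apply, apply_ite f]

theorem trace_pow_mem {A : Type} [CommRing A] (R : Subring A) (M : M2 A) (ht : M.trace ∈ R)
    (hd : M.det ∈ R) (i : ℕ) : (M ^ i).trace ∈ R := by
  have key : ∀ i, (M ^ i).trace ∈ R ∧ (M ^ (i + 1)).trace ∈ R := fun i => by
    induction i with
    | zero =>
      refine ⟨?_, by simpa using ht⟩
      rw [pow_zero, Matrix.trace_one, Fintype.card_fin]
      exact natCast_mem R 2
    | succ i ih =>
      refine ⟨ih.2, ?_⟩
      have h : M * M = M.trace • M - M.det • (1 : M2 A) := by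
        ext a b
        fin_cases a <;> fin_cases b <;>
          simp [Matrix.mul_apply, Fin.sum_univ_two, Matrix.trace_fin_two, Matrix.det_fin_two] <;>
          ring
      rw [pow_succ, pow_succ, mul_assoc, h, mul_sub, mul_smul_comm, mul_smul_comm, mul_one,
        ← pow_succ, Matrix.trace_sub, Matrix.trace_smul, Matrix.trace_smul, smul_eq_mul,
        smul_eq_mul]
      exact sub_mem (mul_mem ht ih.2) (mul_mem hd ih.1)
  exact (key i).1

theorem exists_cyclotomic (σ : GQ) (k : ℕ) :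
    ∃ c : ℕ, ∀ ζ : QBar, ζ ^ 2 ^ k = 1 → σ ζ = ζ ^ c := by
  have : NeZero (2 ^ k) := ⟨pow_ne_zero k two_ne_zero⟩
  obtain ⟨ζ₀, hζ₀⟩ := GaloisReps.exists_primitiveRoot (2 ^ k)
  obtain ⟨c, -, hc⟩ := hζ₀.eq_pow_of_pow_eq_one (ξ := σ ζ₀)
    (by rw [← map_pow, hζ₀.pow_eq_one, map_one])
  refine ⟨c, fun ζ hζ => ?_⟩
  obtain ⟨i, -, rfl⟩ := hζ₀.eq_pow_of_pow_eq_one hζ
  rw [map_pow, ← hc, ← pow_mul, ← pow_mul, mul_comm]

theorem odd_of_cyclotomic {k : ℕ} (hk : 1 ≤ k) {σ : GQ} {c : ℕ}
    (hc : ∀ ζ : QBar, ζ ^ 2 ^ k = 1 → σ ζ = ζ ^ c) : Odd c := by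
  have h := hc (-1) (by rw [Even.neg_one_pow]; exact even_two.pow_of_ne_zero (by omega))
  rw [map_neg, map_one] at h
  rcases Nat.even_or_odd c with he | ho
  · rw [he.neg_one_pow] at h
    exact absurd h (by norm_num)
  · exact ho

variable {W : WeierstrassCurve ℤ} {hW : IsClassC W} {𝔪 : Ideal ZBar} {n : ℕ} {Q : Finset ℕ}
  (S : System W hW 𝔪 n Q)

section Level

include S in
theorem System.not_two_dvd_level : ¬ 2 ∣ level W Q := fun h => by
  rcases Nat.prime_two.dvd_mul.mp h with h | h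
  · exact Residual.not_two_dvd_conductorLevel hW h
  · obtain ⟨q, hq, h⟩ := (Prime.dvd_finsetProd_iff Nat.prime_two.prime _).mp h
    exact (S.aux q hq).ne_two ((Nat.prime_dvd_prime_iff_eq Nat.prime_two (S.aux q hq).prime).mp h).symm

include hW in
theorem good_of_not_dvd_level {ℓ : ℕ} (hℓ : ℓ.Prime) (h : ¬ ℓ ∣ level W Q) :
    W.IsGoodPrimeFor ℓ := fun hd =>
  h (((W.prime_dvd_conductorLevel_iff hW.Δ_ne_zero hℓ).mpr hd).trans (dvd_mul_right _ _))

include S in
theorem System.not_dvd_level {ℓ : ℕ} (hℓ : ℓ.Prime) (hgood : W.IsGoodPrimeFor ℓ) (hQ : ℓ ∉ Q) :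
    ¬ ℓ ∣ level W Q := fun h => by
  rcases hℓ.dvd_mul.mp h with h | h
  · exact hgood ((W.prime_dvd_conductorLevel_iff hW.Δ_ne_zero hℓ).mp h)
  · obtain ⟨q, hq, h⟩ := (Prime.dvd_finsetProd_iff hℓ.prime _).mp h
    exact hQ ((Nat.prime_dvd_prime_iff_eq hℓ (S.aux q hq).prime).mp h ▸ hq)

include S in
theorem System.not_dvd_two_level {ℓ : ℕ} (hℓ : ℓ.Prime) (h2 : ℓ ≠ 2) (h : ¬ ℓ ∣ level W Q) :
    ¬ ℓ ∣ 2 * level W Q := fun hd =>
  (hℓ.dvd_mul.mp hd).elim (fun h' => h2 ((Nat.prime_dvd_prime_iff_eq hℓ Nat.prime_two).mp h')) h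

/-- The operator `a₂`. -/
def System.opTwo : Ops W Q := MvPolynomial.X (Sum.inl ⟨2, Nat.prime_two, S.not_two_dvd_level⟩)

end Level

variable (k : ℕ)

/-- The component of a newform. -/
def System.projG (i : S.ι) : Ambient S k →+* (S.rep i).O ⧸ Ideal.span {(2 : (S.rep i).O) ^ k} :=
  (Pi.evalRingHom _ i).comp (RingHom.fst _ _)

/-- The component of the curve. -/
def System.projE : Ambient S k →+* ZMod (2 ^ (n + 1)) := RingHom.snd _ _

theorem System.ext_proj {x y : Ambient S k} (h : ∀ i, S.projG k i x = S.projG k i y)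
    (h' : S.projE k x = S.projE k y) : x = y :=
  Prod.ext (funext h) h'

theorem System.matrix_ext {X Y : M2 (Ambient S k)}
    (h : ∀ i, (S.projG k i).mapMatrix X = (S.projG k i).mapMatrix Y)
    (h' : (S.projE k).mapMatrix X = (S.projE k).mapMatrix Y) : X = Y :=
  Matrix.ext fun a b => S.ext_proj k (fun i => congrFun (congrFun (h i) a) b)
    (congrFun (congrFun h' a) b)

/-- The entries of the representations of the components. -/
def System.repEntries (σ : GQ) : M2 (Ambient S k) :=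
  Matrix.of fun a b => ((fun i => modIdeal (S.rep i).r
    (Ideal.span {(2 : (S.rep i).O) ^ k}) σ a b), rhoPow W hW.Δ_ne_zero (n + 1) σ a b)

theorem System.projG_entries (i : S.ι) (σ : GQ) :
    (S.projG k i).mapMatrix (S.repEntries k σ) =
      modIdeal (S.rep i).r (Ideal.span {(2 : (S.rep i).O) ^ k}) σ :=
  Matrix.ext fun _ _ => rfl

theorem System.projE_entries (σ : GQ) :
    (S.projE k).mapMatrix (S.repEntries k σ) = rhoPow W hW.Δ_ne_zero (n + 1) σ :=
  Matrix.ext fun _ _ => rfl

/-- The representation in the ambient ring. -/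
def System.repAmbient : GQ →* M2 (Ambient S k) where
  toFun := S.repEntries k
  map_one' := S.matrix_ext k (fun i => by rw [S.projG_entries, map_one, map_one])
    (by rw [S.projE_entries, map_one, map_one])
  map_mul' σ τ := S.matrix_ext k
    (fun i => by rw [map_mul (S.projG k i).mapMatrix, S.projG_entries, S.projG_entries,
      S.projG_entries, map_mul])
    (by rw [map_mul (S.projE k).mapMatrix, S.projE_entries, S.projE_entries, S.projE_entries,
      map_mul])

theorem System.projG_rep (i : S.ι) (σ : GQ) :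
    (S.projG k i).mapMatrix (S.repAmbient k σ) =
      (Ideal.Quotient.mk (Ideal.span {(2 : (S.rep i).O) ^ k})).mapMatrix ((S.rep i).r σ) :=
  S.projG_entries k i σ

theorem System.projE_rep (σ : GQ) : (S.projE k).mapMatrix (S.repAmbient k σ) =
    (PadicInt.toZModPow (p := 2) (n + 1)).mapMatrix (rho W hW.Δ_ne_zero σ) :=
  S.projE_entries k σ

theorem System.projG_phi (i : S.ι) (u : Ops W Q) :
    S.projG k i (S.phi k u) = Ideal.Quotient.mk _ ((S.rep i).coeff (S.coeffHom i u)) := rfl

theorem System.projE_phi (u : Ops W Q) : S.projE k (S.phi k u) = (evE W Q u : ZMod _) := rfl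

theorem System.trace_proj {A : Type*} [CommRing A] (f : Ambient S k →+* A) (σ : GQ) :
    f (S.repAmbient k σ).trace = (f.mapMatrix (S.repAmbient k σ)).trace := by
  simp [Matrix.trace_fin_two]

theorem System.trace_det_frobenius (hC : CurveRep W hW.Δ_ne_zero) {ℓ : ℕ} (hℓ : ℓ.Prime)
    (h2 : ℓ ≠ 2) (hL : ¬ ℓ ∣ level W Q) {A : ValuationSubring QBar} (hA : A.LiesOverPrime ℓ)
    {σ : GQ} (hσ : A.IsFrobeniusAt σ ℓ) :
    (S.repAmbient k σ).trace = S.phi k (MvPolynomial.X (Sum.inl ⟨ℓ, hℓ, hL⟩)) ∧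
      (S.repAmbient k σ).det = (ℓ : Ambient S k) := by
  have hG := fun i => (S.rep i).frobenius ℓ hℓ (S.not_dvd_two_level hℓ h2 hL) A hA σ hσ
  have hE := hC.frobenius ℓ hℓ h2 (good_of_not_dvd_level (hW := hW) hℓ hL) A hA σ hσ
  constructor
  · refine S.ext_proj k (fun i => ?_) ?_
    · rw [S.trace_proj, S.projG_rep, trace_mapMatrix, (hG i).1, S.projG_phi]
      simp [System.coeffHom, System.val]
    · rw [S.trace_proj, S.projE_rep, trace_mapMatrix, hE.1, S.projE_phi,
        map_intCast]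
      simp [evE, valE]
  · refine S.ext_proj k (fun i => ?_) ?_
    · rw [RingHom.map_det, S.projG_rep, ← RingHom.map_det, (hG i).2, map_natCast, map_natCast]
    · rw [RingHom.map_det, S.projE_rep, ← RingHom.map_det, hE.2, map_natCast, map_natCast]

theorem System.det_cyclotomic (hC : CurveRep W hW.Δ_ne_zero) (hk : n + 1 ≤ k) {σ : GQ} {c : ℕ}
    (hc : ∀ ζ : QBar, ζ ^ 2 ^ k = 1 → σ ζ = ζ ^ c) :
    (S.repAmbient k σ).det = (c : Ambient S k) := by
  refine S.ext_proj k (fun i => ?_) ?_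
  · rw [RingHom.map_det, S.projG_rep, ← RingHom.map_det, map_natCast,
      ← map_natCast (Ideal.Quotient.mk (Ideal.span {(2 : (S.rep i).O) ^ k})) c, Ideal.Quotient.eq]
    exact (S.rep i).det k σ c hc
  · rw [RingHom.map_det, map_natCast, show (S.projE k).mapMatrix (S.repAmbient k σ) =
      rhoPow W hW.Δ_ne_zero (n + 1) σ from S.projE_entries k σ]
    refine hC.det (n + 1) σ c fun ζ hζ => hc ζ ?_
    obtain ⟨m, hm⟩ := pow_dvd_pow 2 hk
    rw [hm, pow_mul, hζ, one_pow]

theorem System.isFiniteLevel_repAmbient (hC : CurveRep W hW.Δ_ne_zero) :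
    IsFiniteLevel (S.repAmbient k) := by
  choose L hL hL' using fun i => (S.rep i).finiteLevel k
  obtain ⟨M, hM, hM'⟩ := hC.finiteLevel (n + 1)
  have : ∀ i, FiniteDimensional ℚ (L i) := hL
  have := hM
  refine ⟨(⨆ i, L i) ⊔ M, inferInstance, fun σ hσ => S.matrix_ext k (fun i => ?_) ?_⟩
  · rw [map_one]
    exact (S.projG_entries k i σ).trans
      (hL' i σ fun x hx => hσ x ((le_sup_left : (⨆ i, L i) ≤ _) (le_iSup L i hx)))
  · rw [map_one]
    exact (S.projE_entries k σ).trans
      (hM' σ fun x hx => hσ x ((le_sup_right : M ≤ (⨆ i, L i) ⊔ M) hx))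

theorem System.trace_mem (hC : CurveRep W hW.Δ_ne_zero) (σ : GQ) :
    (S.repAmbient k σ).trace ∈ S.coeffs k := by
  obtain ⟨M, hM, hM'⟩ := S.isFiniteLevel_repAmbient k hC
  obtain ⟨ℓ, hℓ, hℓS, A, hA, τ, hτ, i, hi⟩ :=
    GaloisReps.frobeniusDensity M hM σ (insert 2 (level W Q).primeFactors)
  simp only [Finset.mem_insert, not_or] at hℓS
  have hL : ¬ ℓ ∣ level W Q := fun h => hℓS.2 (Nat.mem_primeFactors.mpr ⟨hℓ, h,
    Nat.mul_ne_zero W.conductorLevel_pos.ne'
      (Finset.prod_ne_zero_iff.mpr fun q hq => (S.aux q hq).prime.ne_zero)⟩)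
  have e : S.repAmbient k σ = S.repAmbient k τ ^ i := by
    have h1 := hM' (σ⁻¹ * τ ^ i) (GaloisReps.inv_mul_fixes hi)
    rw [map_mul, map_pow] at h1
    calc S.repAmbient k σ = S.repAmbient k σ * (S.repAmbient k σ⁻¹ * S.repAmbient k τ ^ i) := by
          rw [h1, mul_one]
      _ = _ := by rw [← mul_assoc, ← map_mul, mul_inv_cancel, map_one, one_mul]
  obtain ⟨ht, hd⟩ := S.trace_det_frobenius k hC hℓ hℓS.1 hL hA hτ
  rw [e]
  exact trace_pow_mem _ _ (ht ▸ ⟨_, rfl⟩) (hd ▸ natCast_mem _ ℓ) i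

theorem System.aux_conditions (hC : CurveRep W hW.Δ_ne_zero) (q : {q // q ∈ Q})
    {P : ValuationSubring QBar} (hP : P.LiesOverPrime q.1) {σ : GQ}
    (hσ : P.IsFrobeniusAt σ q.1) :
    (S.repAmbient k σ).trace =
        S.phi k (MvPolynomial.X (Sum.inr q)) * (1 + (q.1 : Ambient S k)) ∧
      ∀ τ ∈ P.inertiaSubgroupIn ℚ, (S.repAmbient k τ - 1) *
        (S.repAmbient k σ - S.phi k (MvPolynomial.X (Sum.inr q)) • 1) = 0 := by
  have hq := S.aux q.1 q.2
  have hvG : ∀ i, S.projG k i (S.phi k (MvPolynomial.X (Sum.inr q))) =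
      Ideal.Quotient.mk _ (S.sign i q : (S.rep i).O) := fun i => by
    rw [S.projG_phi]; simp [System.coeffHom, System.val]
  have hvE : S.projE k (S.phi k (MvPolynomial.X (Sum.inr q))) = 1 := by
    rw [S.projE_phi]; simp [evE, valE]
  constructor
  · refine S.ext_proj k (fun i => ?_) ?_
    · rw [S.trace_proj, S.projG_rep, trace_mapMatrix, (((S.sign_spec i q).2 P hP).2 σ hσ).1,
        map_mul, map_mul, hvG, map_add, map_add, map_one, map_one, map_natCast, map_natCast]
    · rw [S.trace_proj, S.projE_rep, trace_mapMatrix,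
        (hC.frobenius q.1 hq.prime hq.ne_two hq.good P hP σ hσ).1, map_intCast, map_mul, hvE,
        one_mul, map_add, map_one, map_natCast]
      have h : ((2 ^ (n + 1) : ℕ) : ℤ) ∣ W.apOfModel q.1 - (1 + (q.1 : ℤ)) := by
        have := dvd_sub hq.ap_mod hq.q_mod
        rwa [show W.apOfModel q.1 - 4 - ((q.1 : ℤ) - 3) = W.apOfModel q.1 - (1 + (q.1 : ℤ)) by
          ring] at this
      have h' := (ZMod.intCast_zmod_eq_zero_iff_dvd _ (2 ^ (n + 1))).mpr h
      push_cast at h'
      exact sub_eq_zero.mp h'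
  · intro τ hτ
    refine S.matrix_ext k (fun i => ?_) ?_
    · rw [map_mul, map_sub, map_sub, map_one, mapMatrix_smul_one, hvG, S.projG_rep, S.projG_rep,
        ← mapMatrix_smul_one, ← map_one (Ideal.Quotient.mk
          (Ideal.span {(2 : (S.rep i).O) ^ k})).mapMatrix, ← map_sub, ← map_sub, ← map_mul,
        (((S.sign_spec i q).2 P hP).2 σ hσ).2 τ hτ, map_zero, map_zero]
    · rw [map_mul, map_sub, map_one, S.projE_rep,
        hC.unramified q.1 hq.prime hq.ne_two hq.good P hP τ hτ, map_one, sub_self, zero_mul,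
        map_zero]

theorem System.bad_conditions (hC : CurveRep W hW.Δ_ne_zero) {ℓ : ℕ} (hℓ : ℓ.Prime)
    (hd : (ℓ : ℤ) ∣ W.Δ) {P : ValuationSubring QBar} (hP : P.LiesOverPrime ℓ) {τ : GQ}
    (hτ : τ ∈ P.inertiaSubgroupIn ℚ) :
    (S.repAmbient k τ - 1) ^ 2 = 0 ∧ (S.repAmbient k τ).trace = 2 := by
  have hL : ℓ ∣ level W Q :=
    ((W.prime_dvd_conductorLevel_iff hW.Δ_ne_zero hℓ).mpr hd).trans (dvd_mul_right _ _)
  have hG : ∀ i, ((S.rep i).r τ - 1) ^ 2 = 0 ∧ ((S.rep i).r τ).trace = 2 := fun i => by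
    obtain ⟨δ, -, h⟩ := (S.rep i).special ℓ hℓ hL
    exact (h P hP).1 τ hτ
  obtain ⟨hE1, hE2⟩ := (hC.bad ℓ hℓ hd P hP).1 τ hτ
  refine ⟨S.matrix_ext k (fun i => ?_) ?_, S.ext_proj k (fun i => ?_) ?_⟩
  · rw [map_pow, map_sub, map_one, S.projG_rep, ← map_one (Ideal.Quotient.mk
      (Ideal.span {(2 : (S.rep i).O) ^ k})).mapMatrix, ← map_sub, ← map_pow, (hG i).1, map_zero,
      map_zero]
  · rw [map_pow, map_sub, map_one, S.projE_rep,
      ← map_one (PadicInt.toZModPow (p := 2) (n + 1)).mapMatrix, ← map_sub, ← map_pow, hE1,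
      map_zero, map_zero]
  · rw [S.trace_proj, S.projG_rep, trace_mapMatrix, (hG i).2, map_ofNat, map_ofNat]
  · rw [S.trace_proj, S.projE_rep, trace_mapMatrix, hE2, map_ofNat, map_ofNat]

theorem System.unramified (hC : CurveRep W hW.Δ_ne_zero) {ℓ : ℕ} (hℓ : ℓ.Prime) (h2 : ℓ ≠ 2)
    (hgood : W.IsGoodPrimeFor ℓ) (hQ : ℓ ∉ Q) {P : ValuationSubring QBar}
    (hP : P.LiesOverPrime ℓ) {τ : GQ} (hτ : τ ∈ P.inertiaSubgroupIn ℚ) :
    S.repAmbient k τ = 1 := by
  refine S.matrix_ext k (fun i => ?_) ?_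
  · rw [S.projG_rep, (S.rep i).unramified ℓ hℓ
      (S.not_dvd_two_level hℓ h2 (S.not_dvd_level hℓ hgood hQ)) P hP τ hτ, map_one, map_one]
  · rw [S.projE_rep, hC.unramified ℓ hℓ h2 hgood P hP τ hτ, map_one, map_one]

theorem eq_of_quadratic {A : Type*} [CommRing A] {a x α u : A} (hx : x * x - a * x + 2 = 0)
    (hα : α * α - a * α + 2 = 0) (hu : u * α = 1) (hxu : IsUnit x) (h2 : IsNilpotent (2 : A)) :
    x = α := by
  have hsum : x + α - a = x - 2 * u := by
    linear_combination (u : A) * hα - (α - a) * hu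
  have hunit : IsUnit (x + α - a) := by
    rw [hsum, sub_eq_add_neg]
    exact ((Commute.all _ _).isNilpotent_mul_right h2).neg.isUnit_add_left_of_commute hxu
      (Commute.all _ _)
  refine sub_eq_zero.mp (hunit.mul_left_eq_zero.mp ?_)
  linear_combination hx - hα

theorem System.root_mem {α u : Ambient S k} (huα : u * α = 1)
    (hquad : α * α - S.phi k S.opTwo * α + 2 = 0) : α ∈ S.coeffs k ∧ u ∈ S.coeffs k := by
  set a := S.phi k S.opTwo with hadef
  have hares : S.resid k a = 1 := by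
    have h1 : S.resid k a = (W.apOfModel 2 : ZMod 2) := by
      rw [System.resid, RingHom.comp_apply]
      change ZMod.castHom _ (ZMod 2) (S.projE k (S.phi k S.opTwo)) = _
      rw [S.projE_phi, map_intCast]
      simp [System.opTwo, evE, valE]
    obtain ⟨m, hm⟩ := hW.ap_two_odd
    rw [h1, hm]
    push_cast
    rw [show (2 : ZMod 2) = 0 from rfl, zero_mul, zero_add]
  have h2 : IsNilpotent (2 : Ambient S k) :=
    S.isNilpotent_of_resid k 2 (ofNat_mem _ 2) (by rw [map_ofNat]; rfl)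
  -- the root inside the ring of coefficients
  let a' : S.coeffs k := ⟨a, ⟨_, rfl⟩⟩
  have hN : IsNilpotent (2 : S.coeffs k) :=
    (IsNilpotent.map_iff (f := (S.coeffs k).subtype) Subtype.val_injective).mp h2
  have haunit : IsUnit a' := by
    rcases IsLocalRing.isUnit_or_isUnit_one_sub_self a' with h | h
    · exact h
    · exfalso
      have h' := h.map ((S.resid k).comp (S.coeffs k).subtype)
      rw [RingHom.comp_apply] at h'
      simp only [map_sub, map_one, Subring.coe_subtype] at h'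
      rw [show (a' : Ambient S k) = a from rfl, hares, sub_self] at h'
      exact not_isUnit_zero h'
  open Polynomial in
  obtain ⟨x, ⟨hxn, hx⟩, -⟩ := existsUnique_nilpotent_sub_and_aeval_eq_zero
    (R := S.coeffs k) (S := S.coeffs k) (x := a') (P := X ^ 2 - C a' * X + C 2)
    (by simpa [sq] using hN) (by
      convert haunit using 1
      simp [derivative_add, derivative_sub, sq])
  simp only [map_add, map_sub, map_mul, map_pow, Polynomial.aeval_X, Polynomial.aeval_C,
    Algebra.algebraMap_self, RingHom.id_apply] at hx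
  have hxunit : IsUnit x := by
    have := (IsNilpotent.neg hxn).isUnit_add_left_of_commute haunit (Commute.all _ _)
    rwa [← sub_eq_add_neg, sub_sub_cancel] at this
  have hxα : (x : Ambient S k) = α := by
    refine eq_of_quadratic (a := a) ?_ hquad huα (hxunit.map (S.coeffs k).subtype) h2
    have h := congrArg (fun y : S.coeffs k => (y : Ambient S k)) hx
    push_cast at h
    rw [← h, pow_two]
    rfl
  have hαmem : α ∈ S.coeffs k := hxα ▸ x.2
  have humem : u ∈ S.coeffs k := by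
    obtain ⟨y, hy⟩ := hxunit
    have : u = ((y⁻¹ : (S.coeffs k)ˣ) : S.coeffs k) := by
      have h1 := congrArg (fun z : S.coeffs k => (z : Ambient S k)) y.inv_mul
      push_cast at h1
      rw [hy, hxα] at h1
      calc u = u * (((y⁻¹ : (S.coeffs k)ˣ) : S.coeffs k) * α) := by rw [h1, mul_one]
        _ = (u * α) * ((y⁻¹ : (S.coeffs k)ˣ) : S.coeffs k) := by ring
        _ = _ := by rw [huα, one_mul]
    rw [this]
    exact SetLike.coe_mem _
  exact ⟨hαmem, humem⟩

theorem System.exists_alpha (hC : CurveRep W hW.Δ_ne_zero) :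
    ∃ α u : Ambient S k, α ∈ S.coeffs k ∧ u ∈ S.coeffs k ∧ u * α = 1 ∧
      S.phi k S.opTwo = α + 2 * u ∧
      ∀ P : ValuationSubring QBar, P.LiesOverPrime 2 → ∀ σ : GQ, P.IsFrobeniusAt σ 2 →
        (S.repAmbient k σ).trace = α + (S.repAmbient k σ).det * u ∧
        ∀ τ ∈ P.inertiaSubgroupIn ℚ,
          (S.repAmbient k τ).trace = 1 + (S.repAmbient k τ).det ∧
          (S.repAmbient k τ - (S.repAmbient k τ).det • 1) * (S.repAmbient k σ - α • 1) = 0 ∧
          ∀ τ' ∈ P.inertiaSubgroupIn ℚ,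
            (S.repAmbient k τ - (S.repAmbient k τ).det • 1) * (S.repAmbient k τ' - 1) = 0 := by
  choose αG uG hu ha hG using fun i => (S.rep i).two
  obtain ⟨αE, uE, huE, haE, hE⟩ := hC.two
  let α : Ambient S k :=
    (fun i => Ideal.Quotient.mk _ (αG i), PadicInt.toZModPow (p := 2) (n + 1) αE)
  let u : Ambient S k :=
    (fun i => Ideal.Quotient.mk _ (uG i), PadicInt.toZModPow (p := 2) (n + 1) uE)
  have hαG : ∀ i, S.projG k i α = Ideal.Quotient.mk _ (αG i) := fun i => rfl
  have huG : ∀ i, S.projG k i u = Ideal.Quotient.mk _ (uG i) := fun i => rfl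
  have hαE : S.projE k α = PadicInt.toZModPow (p := 2) (n + 1) αE := rfl
  have huE' : S.projE k u = PadicInt.toZModPow (p := 2) (n + 1) uE := rfl
  have haG : ∀ i, S.projG k i (S.phi k S.opTwo) = Ideal.Quotient.mk _
      ((S.rep i).coeff ⟨_, Algebra.subset_adjoin ⟨2, rfl⟩⟩) := fun i => by
    rw [S.projG_phi]; simp [System.opTwo, System.coeffHom, System.val]
  have haE' : S.projE k (S.phi k S.opTwo) =
      PadicInt.toZModPow (p := 2) (n + 1) (W.apOfModel 2 : ℤ_[2]) := by
    rw [S.projE_phi, map_intCast]; simp [System.opTwo, evE, valE]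
  set a := S.phi k S.opTwo with hadef
  have huα : u * α = 1 := S.ext_proj k
    (fun i => by rw [map_mul, huG, hαG, ← map_mul, hu, map_one, map_one])
    (by rw [map_mul, huE', hαE, ← map_mul, huE, map_one, map_one])
  have hquad : α * α - a * α + 2 = 0 := S.ext_proj k
    (fun i => by
      have h := congrArg (Ideal.Quotient.mk (Ideal.span {(2 : (S.rep i).O) ^ k})) (ha i)
      rw [map_zero, map_add, map_sub, map_mul, map_mul, map_ofNat] at h
      rw [map_add, map_sub, map_mul, map_mul, hαG, haG, map_ofNat, map_zero]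
      exact h)
    (by
      have h := congrArg (PadicInt.toZModPow (p := 2) (n + 1)) haE
      rw [map_zero, map_add, map_sub, map_mul, map_mul, map_ofNat] at h
      rw [map_add, map_sub, map_mul, map_mul, hαE, haE', map_ofNat, map_zero]
      exact h)
  obtain ⟨hαmem, humem⟩ := S.root_mem k huα hquad
  refine ⟨α, u, hαmem, humem, huα, ?_, fun P hP σ hσ => ⟨S.ext_proj k (fun i => ?_) ?_,
    fun τ hτ => ⟨S.ext_proj k (fun i => ?_) ?_, S.matrix_ext k (fun i => ?_) ?_,
      fun τ' hτ' => S.matrix_ext k (fun i => ?_) ?_⟩⟩⟩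
  · linear_combination (-u) * hquad - (a - α) * huα
  · rw [S.trace_proj, map_add, map_mul, RingHom.map_det, S.projG_rep, ← RingHom.map_det, hαG, huG,
      trace_mapMatrix, (hG i P hP σ hσ).1,
      map_add, map_mul]
  · rw [S.trace_proj, map_add, map_mul, RingHom.map_det, S.projE_rep, ← RingHom.map_det, hαE, huE',
      trace_mapMatrix,
      (hE P hP σ hσ).1, map_add, map_mul]
  · rw [S.trace_proj, map_add, map_one, RingHom.map_det, S.projG_rep, ← RingHom.map_det,
      trace_mapMatrix,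
      ((hG i P hP σ hσ).2 τ hτ).1, map_add, map_one]
  · rw [S.trace_proj, map_add, map_one, RingHom.map_det, S.projE_rep, ← RingHom.map_det,
      trace_mapMatrix,
      ((hE P hP σ hσ).2 τ hτ).1, map_add, map_one]
  · rw [map_mul, map_sub, map_sub, mapMatrix_smul_one, mapMatrix_smul_one, RingHom.map_det,
      S.projG_rep, S.projG_rep, ← RingHom.map_det, hαG, ← mapMatrix_smul_one, ← mapMatrix_smul_one,
      ← map_sub, ← map_sub, ← map_mul, ((hG i P hP σ hσ).2 τ hτ).2.1, map_zero, map_zero]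
  · rw [map_mul, map_sub, map_sub, mapMatrix_smul_one, mapMatrix_smul_one, RingHom.map_det,
      S.projE_rep, S.projE_rep, ← RingHom.map_det, hαE, ← mapMatrix_smul_one, ← mapMatrix_smul_one,
      ← map_sub, ← map_sub, ← map_mul, ((hE P hP σ hσ).2 τ hτ).2.1, map_zero, map_zero]
  · rw [map_mul, map_sub, map_sub, map_one, mapMatrix_smul_one, RingHom.map_det, S.projG_rep,
      S.projG_rep, ← RingHom.map_det, ← mapMatrix_smul_one, ← map_one (Ideal.Quotient.mk
        (Ideal.span {(2 : (S.rep i).O) ^ k})).mapMatrix, ← map_sub, ← map_sub, ← map_mul,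
      ((hG i P hP σ hσ).2 τ hτ).2.2 τ' hτ', map_zero, map_zero]
  · rw [map_mul, map_sub, map_sub, map_one, mapMatrix_smul_one, RingHom.map_det, S.projE_rep,
      S.projE_rep, ← RingHom.map_det, ← mapMatrix_smul_one,
      ← map_one (PadicInt.toZModPow (p := 2) (n + 1)).mapMatrix, ← map_sub, ← map_sub, ← map_mul,
      ((hE P hP σ hσ).2 τ hτ).2.2 τ' hτ', map_zero, map_zero]

end Fermat.Agent.TwoAdic.Congruence
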