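import Fermat.Agent.TwoAdic.Congruence.Datum
import Fermat.Agent.TwoAdic.Congruence.Algebra
import Mathlib.FieldTheory.Finiteness

/-!
# One of the newforms is congruent to the curve to a high power of two

The dihedral bound gives as many generators of the ring of coefficients as there are newforms, and
the congruence lemma then singles out one of them.
-/

set_option autoImplicit false
set_option synthInstance.maxHeartbeats 400000

noncomputable section

open WeierstrassCurve CongruenceSubgroup ModularFormClass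

namespace Fermat.Agent.TwoAdic.Congruence

open Arith (QBar GQ)
open Forms (ZBar)

/-- A finite ring with `2` nilpotent and at most `2 ^ d` classes modulo `2` has `d` generators as
an abelian group. -/
theorem exists_generators {R : Type} [CommRing R] [Finite R] (h2 : IsNilpotent (2 : R)) {d : ℕ}
    (hcard : Nat.card (R ⧸ Ideal.span {(2 : R)}) ≤ 2 ^ d) :
    ∃ w : Fin d → R, ∀ x : R, ∃ z : Fin d → ℤ, ∑ l, z l • w l = x := by
  set I := Ideal.span {(2 : R)}
  have hI : ∀ x : R ⧸ I, 2 • x = 0 := fun x => by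
    obtain ⟨y, rfl⟩ := Ideal.Quotient.mk_surjective x
    rw [← map_nsmul, nsmul_eq_mul]
    exact Ideal.Quotient.eq_zero_iff_mem.mpr
      (Ideal.mul_mem_right y _ (Ideal.mem_span_singleton_self (2 : R)))
  let _ : Module (ZMod 2) (R ⧸ I) := AddCommGroup.zmodModule hI
  have : Finite (R ⧸ I) := Quotient.finite _
  have : Module.Finite (ZMod 2) (R ⧸ I) := Module.Finite.of_finite
  have hr : Module.finrank (ZMod 2) (R ⧸ I) ≤ d := by
    have h := Module.natCard_eq_pow_finrank (K := ZMod 2) (V := R ⧸ I)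
    rw [Nat.card_zmod] at h
    rw [h] at hcard
    exact (Nat.pow_le_pow_iff_right one_lt_two).mp hcard
  let b := Module.finBasis (ZMod 2) (R ⧸ I)
  let w : Fin d → R := fun l =>
    if h : (l : ℕ) < Module.finrank (ZMod 2) (R ⧸ I) then Quotient.out (b ⟨l, h⟩) else 0
  let S := Submodule.span ℤ (Set.range w)
  have hone : ∀ x : R, ∃ s ∈ S, ∃ y, x = s + 2 * y := fun x => by
    have hmk : Ideal.Quotient.mk I x ∈ S.toAddSubgroup.map (Ideal.Quotient.mk I).toAddMonoidHom := by
      rw [← b.sum_repr (Ideal.Quotient.mk I x)]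
      refine AddSubgroup.sum_mem _ fun i _ => ?_
      rcases (show ∀ c : ZMod 2, c = 0 ∨ c = 1 by decide) (b.repr (Ideal.Quotient.mk I x) i)
        with h | h <;> rw [h]
      · rw [zero_smul]; exact zero_mem _
      · rw [one_smul]
        refine ⟨w ⟨i, i.2.trans_le hr⟩, Submodule.subset_span ⟨_, rfl⟩, ?_⟩
        simp only [w, i.2, dite_true]
        exact Quotient.out_eq _
    obtain ⟨s, hs, hsx⟩ := hmk
    obtain ⟨y, hy⟩ := Ideal.mem_span_singleton.mp (Ideal.Quotient.eq.mp hsx.symm)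
    exact ⟨s, hs, y, by rw [← hy]; ring⟩
  have hiter : ∀ (i : ℕ) (x : R), ∃ s ∈ S, ∃ y, x = s + 2 ^ i * y := fun i => by
    induction i with
    | zero => exact fun x => ⟨0, zero_mem _, x, by simp⟩
    | succ i ih =>
      intro x
      obtain ⟨s, hs, y, rfl⟩ := ih x
      obtain ⟨t, ht, z, rfl⟩ := hone y
      refine ⟨s + (2 ^ i : ℤ) • t, add_mem hs (S.smul_mem _ ht), z, ?_⟩
      rw [zsmul_eq_mul]; push_cast; ring
  obtain ⟨N, hN⟩ := h2
  refine ⟨w, fun x => Submodule.mem_span_range_iff_exists_fun ℤ |>.mp ?_⟩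
  obtain ⟨s, hs, y, rfl⟩ := hiter N x
  rwa [hN, zero_mul, add_zero]

variable {W : WeierstrassCurve ℤ} {hW : IsClassC W} {𝔪 : Ideal ZBar} {n : ℕ} {Q : Finset ℕ}
  (S : System W hW 𝔪 n Q)

/-- With as many newforms as the dihedral bound, one of them is congruent to the curve. -/
theorem System.exists_congruent_index [𝔪.IsPrime] (hC : CurveRep W hW.Δ_ne_zero)
    (hPeu : PeuProperty) (hD : DihedralBound) {B : ℕ}
    (hB : UnramifiedCharBound W.conductorLevel B) (hsel : SelmerTrivial W hW.Δ_ne_zero Q)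
    [Nonempty S.ι] (hcard : B * 2 ^ (Q.card + 1) ≤ Fintype.card S.ι) {j : ℕ}
    (hj : j * Fintype.card S.ι ≤ n + 1) :
    ∃ i, ∀ u, ∃ v ∈ placeRing 𝔪, S.gHom i u - (evE W Q u : ℂ) = 2 ^ j * v := by
  classical
  obtain ⟨us, hus⟩ := exists_det_ne_zero S.gHom S.gHom_injective
  obtain ⟨e, v₀, hv₀, hdet⟩ := exists_mul_eq_two_pow (𝔪 := 𝔪) S.two_mem
    (IsIntegral.det (R := ℤ) fun i l => by
      obtain ⟨a, ha, -⟩ := S.exists_zbar i (us l)
      show IsIntegral ℤ (S.gHom i (us l))
      rw [← ha]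
      exact a.2) hus
  set k := n + 1 + e with hk
  have h2 : IsNilpotent (2 : S.coeffs k) :=
    (IsNilpotent.map_iff (f := (S.coeffs k).subtype) Subtype.val_injective).mp
      (S.isNilpotent_of_resid k 2 (ofNat_mem _ 2) (by rw [map_ofNat]; rfl))
  obtain ⟨w₀, hw₀⟩ := exists_generators h2 (d := Fintype.card S.ι)
    ((S.card_coeffs_le k hC (by omega) hPeu hD hB hsel).trans
      (Nat.pow_le_pow_right two_pos hcard))
  choose w hw using fun l => RingHom.rangeRestrict_surjective (S.phi k) (w₀ l)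
  let eι := Fintype.equivFin S.ι
  refine exists_congruent S.gHom S.gHom_mem_placeRing (evE W Q) n e j (fun i => w (eι i)) us
    (fun u => ?_) ⟨v₀, hv₀, hdet⟩ (S.dvd_or_exists_mul · j ·) hj
  obtain ⟨z, hz⟩ := hw₀ ((S.phi k).rangeRestrict u)
  refine ⟨fun i => z (eι i), ?_⟩
  have h0 : S.phi k (u - ∑ l, (z l : Ops W Q) * w l) = 0 := by
    have h := congrArg (fun x : S.coeffs k => (x : Ambient S k)) hz
    push_cast at h
    rw [map_sub, map_sum, sub_eq_zero, ← RingHom.coe_rangeRestrict (S.phi k) u, ← h]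
    refine Finset.sum_congr rfl fun l _ => ?_
    rw [← hw l, map_mul, map_intCast]
    simp [zsmul_eq_mul]
  have hsum : ∀ {M : Type} [AddCommMonoid M] (F : Fin (Fintype.card S.ι) → M),
      ∑ l, F l = ∑ i, F (eι i) := fun F => (eι.sum_comp F).symm
  refine ⟨fun i => ?_, ?_⟩
  · obtain ⟨v, hv, hveq⟩ := S.mk_eq_zero i k _ (by rw [h0]; rfl)
    refine ⟨v, hv, ?_⟩
    rw [← hk, ← hveq, map_sub, map_sum, hsum]
    simp
  · have h := congrArg (S.projE k) h0
    rw [S.projE_phi, map_zero, ZMod.intCast_zmod_eq_zero_iff_dvd, map_sub, map_sum, hsum] at h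
    simpa using h

end Fermat.Agent.TwoAdic.Congruence
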