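import Fermat.Agent.TwoAdic.Galois.Interface
import Fermat.Agent.TwoAdic.Congruence.Place
import Mathlib.RingTheory.DiscreteValuationRing.Basic
import Mathlib.RingTheory.Ideal.Quotient.Index
import Mathlib.Algebra.MvPolynomial.Eval

/-!
# The ring of coefficients of congruent newforms and of the curve

`Ops` is the polynomial ring on the good primes and the auxiliary signs, `phi` its evaluation in
the product of the coefficient rings of the newforms modulo `2 ^ k` and of `ℤ / 2 ^ (n + 1)` for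
the curve; `coeffs` is its image.
-/

set_option autoImplicit false
set_option synthInstance.maxHeartbeats 400000

noncomputable section

open WeierstrassCurve CongruenceSubgroup ModularFormClass

namespace Fermat.Agent.TwoAdic.Congruence

open Arith (QBar GQ)
open Forms (ZBar)

/-- The level of the auxiliary set. -/
abbrev level (W : WeierstrassCurve ℤ) (Q : Finset ℕ) : ℕ := W.conductorLevel * ∏ q ∈ Q, q

/-- The primes outside the level. -/
abbrev GoodPrime (W : WeierstrassCurve ℤ) (Q : Finset ℕ) : Type :=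
  {ℓ : ℕ // ℓ.Prime ∧ ¬ ℓ ∣ level W Q}

/-- The ring of the operators at good primes and of the auxiliary signs. -/
abbrev Ops (W : WeierstrassCurve ℤ) (Q : Finset ℕ) : Type :=
  MvPolynomial (GoodPrime W Q ⊕ {q // q ∈ Q}) ℤ

/-- Newforms at the auxiliary level congruent to the curve, with their representations. -/
structure System (W : WeierstrassCurve ℤ) (hW : IsClassC W) (𝔪 : Ideal ZBar) (n : ℕ)
    (Q : Finset ℕ) where
  ι : Type
  [fintype : Fintype ι]
  g : ι → CuspForm (Gamma0 (level W Q)) 2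
  newform : ∀ i, (g i).IsNewform
  inj : Function.Injective g
  rep : ∀ i, NewformRep (g i) 𝔪
  cong : ∀ i, ∀ ℓ : ℕ, ℓ.Prime → ¬ ℓ ∣ level W Q →
    ∃ a : ZBar, (a : ℂ) = qCoeff (g i) ℓ ∧ a - ((W.apOfModel ℓ : ℤ) : ZBar) ∈ 𝔪
  aux : ∀ q ∈ Q, IsAuxPrime W hW.Δ_ne_zero (n + 1) q
  two_mem : (2 : ZBar) ∈ 𝔪

attribute [instance] System.fintype

/-- The values of the curve. -/
def valE (W : WeierstrassCurve ℤ) (Q : Finset ℕ) : GoodPrime W Q ⊕ {q // q ∈ Q} → ℤ :=
  Sum.elim (fun ℓ => W.apOfModel ℓ.1) (fun _ => 1)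

/-- The character of the curve. -/
def evE (W : WeierstrassCurve ℤ) (Q : Finset ℕ) : Ops W Q →+* ℤ :=
  MvPolynomial.eval₂Hom (RingHom.id ℤ) (valE W Q)

theorem ops_induction {W : WeierstrassCurve ℤ} {Q : Finset ℕ} {C : Ops W Q → Prop}
    (hC : ∀ c : ℤ, C (MvPolynomial.C c)) (hadd : ∀ x y, C x → C y → C (x + y))
    (hX : ∀ x v, C x → C (x * MvPolynomial.X v)) (u : Ops W Q) : C u :=
  MvPolynomial.induction_on u hC hadd hX

variable {W : WeierstrassCurve ℤ} {hW : IsClassC W} {𝔪 : Ideal ZBar} {n : ℕ} {Q : Finset ℕ}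
  (S : System W hW 𝔪 n Q)

theorem System.exists_sign (i : S.ι) (q : {q // q ∈ Q}) : ∃ s : ℤ, (s = 1 ∨ s = -1) ∧
    ∀ P : ValuationSubring QBar, P.LiesOverPrime q.1 →
      (∀ τ ∈ P.inertiaSubgroupIn ℚ,
        ((S.rep i).r τ - 1) ^ 2 = 0 ∧ ((S.rep i).r τ).trace = 2) ∧
      ∀ σ : GQ, P.IsFrobeniusAt σ q.1 →
        ((S.rep i).r σ).trace = (s : (S.rep i).O) * (1 + (q.1 : (S.rep i).O)) ∧
        ∀ τ ∈ P.inertiaSubgroupIn ℚ,
          ((S.rep i).r τ - 1) * ((S.rep i).r σ - (s : (S.rep i).O) • 1) = 0 := by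
  obtain ⟨δ, hδ, h⟩ := (S.rep i).special q.1 (S.aux _ q.2).prime
    ((Finset.dvd_prod_of_mem (fun q : ℕ => q) q.2).trans (dvd_mul_left _ _))
  rcases mul_self_eq_one_iff.mp hδ with rfl | rfl
  · exact ⟨1, Or.inl rfl, by simpa using h⟩
  · exact ⟨-1, Or.inr rfl, by simpa using h⟩

/-- The sign of a newform at an auxiliary prime. -/
def System.sign (i : S.ι) (q : {q // q ∈ Q}) : ℤ := (S.exists_sign i q).choose

theorem System.sign_spec (i : S.ι) (q : {q // q ∈ Q}) :
    (S.sign i q = 1 ∨ S.sign i q = -1) ∧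
    ∀ P : ValuationSubring QBar, P.LiesOverPrime q.1 →
      (∀ τ ∈ P.inertiaSubgroupIn ℚ,
        ((S.rep i).r τ - 1) ^ 2 = 0 ∧ ((S.rep i).r τ).trace = 2) ∧
      ∀ σ : GQ, P.IsFrobeniusAt σ q.1 →
        ((S.rep i).r σ).trace = (S.sign i q : (S.rep i).O) * (1 + (q.1 : (S.rep i).O)) ∧
        ∀ τ ∈ P.inertiaSubgroupIn ℚ,
          ((S.rep i).r τ - 1) * ((S.rep i).r σ - (S.sign i q : (S.rep i).O) • 1) = 0 :=
  (S.exists_sign i q).choose_spec

/-- The values of a newform. -/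
def System.val (i : S.ι) : GoodPrime W Q ⊕ {q // q ∈ Q} → coeffRing (S.g i) :=
  Sum.elim (fun ℓ => ⟨_, Algebra.subset_adjoin ⟨ℓ.1, rfl⟩⟩) (fun q => (S.sign i q : coeffRing _))

/-- The character of a newform in its coefficient ring. -/
def System.coeffHom (i : S.ι) : Ops W Q →+* coeffRing (S.g i) :=
  MvPolynomial.eval₂Hom (Int.castRingHom _) (S.val i)

/-- The character of a newform. -/
def System.gHom (i : S.ι) : Ops W Q →+* ℂ := (coeffRing (S.g i)).val.toRingHom.comp (S.coeffHom i)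

theorem System.gHom_apply (i : S.ι) (u : Ops W Q) : S.gHom i u = (S.coeffHom i u : ℂ) := rfl

theorem System.exists_zbar (i : S.ι) (u : Ops W Q) :
    ∃ a : ZBar, (a : ℂ) = S.gHom i u ∧ a - ((evE W Q u : ℤ) : ZBar) ∈ 𝔪 := by
  induction u using ops_induction with
  | hC c => exact ⟨c, by simp [System.gHom, System.coeffHom], by simp [evE]⟩
  | hadd x y hx hy =>
    obtain ⟨a, ha, ha'⟩ := hx
    obtain ⟨b, hb, hb'⟩ := hy
    refine ⟨a + b, by rw [map_add, ← ha, ← hb]; rfl, ?_⟩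
    rw [map_add, Int.cast_add, add_sub_add_comm]
    exact add_mem ha' hb'
  | hX x v hx =>
    obtain ⟨a, ha, ha'⟩ := hx
    obtain ⟨b, hb, hb'⟩ : ∃ b : ZBar, (b : ℂ) = (S.val i v : ℂ) ∧
        b - ((valE W Q v : ℤ) : ZBar) ∈ 𝔪 := by
      rcases v with ℓ | q
      · exact S.cong i ℓ.1 ℓ.2.1 ℓ.2.2
      · refine ⟨(S.sign i q : ZBar), by simp [System.val], ?_⟩
        rcases (S.sign_spec i q).1 with h | h <;> rw [h]
        · simp [valE]
        · have : ((-1 : ℤ) : ZBar) - ((valE W Q (Sum.inr q) : ℤ) : ZBar) = -2 := by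
            simp [valE]; ring
          rw [this]
          exact neg_mem S.two_mem
    refine ⟨a * b, ?_, ?_⟩
    · rw [map_mul, ← ha, MulMemClass.coe_mul, hb]
      simp [System.gHom, System.coeffHom]
    · have e : evE W Q (x * MvPolynomial.X v) = evE W Q x * valE W Q v := by simp [evE]
      rw [e, Int.cast_mul, show a * b - ((evE W Q x : ℤ) : ZBar) * ((valE W Q v : ℤ) : ZBar) =
        a * (b - ((valE W Q v : ℤ) : ZBar)) +
          ((valE W Q v : ℤ) : ZBar) * (a - ((evE W Q x : ℤ) : ZBar)) by ring]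
      exact add_mem (Ideal.mul_mem_left _ _ hb') (Ideal.mul_mem_left _ _ ha')

theorem System.gHom_mem_placeRing [𝔪.IsPrime] (i : S.ι) (u : Ops W Q) :
    S.gHom i u ∈ placeRing 𝔪 := by
  obtain ⟨a, ha, -⟩ := S.exists_zbar i u
  exact ha ▸ zbar_mem_placeRing a

/-- The ambient ring. -/
abbrev Ambient (k : ℕ) : Type :=
  (∀ i, (S.rep i).O ⧸ Ideal.span {(2 : (S.rep i).O) ^ k}) × ZMod (2 ^ (n + 1))

/-- The evaluation in the ambient ring. -/
def System.phi (k : ℕ) : Ops W Q →+* Ambient S k :=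
  RingHom.prod (RingHom.pi fun i =>
      (Ideal.Quotient.mk _).comp ((S.rep i).coeff.comp (S.coeffHom i)))
    ((Int.castRingHom _).comp (evE W Q))

/-- The ring of coefficients. -/
abbrev System.coeffs (k : ℕ) : Subring (Ambient S k) := (S.phi k).range

/-- The residual character. -/
def System.resid (k : ℕ) : Ambient S k →+* ZMod 2 :=
  (ZMod.castHom (dvd_pow_self 2 n.succ_ne_zero) (ZMod 2)).comp (RingHom.snd _ _)

theorem System.phi_fst (k : ℕ) (u : Ops W Q) (i : S.ι) :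
    (S.phi k u).1 i = Ideal.Quotient.mk _ ((S.rep i).coeff (S.coeffHom i u)) := rfl

theorem System.phi_snd (k : ℕ) (u : Ops W Q) : (S.phi k u).2 = (evE W Q u : ZMod _) := rfl

theorem isNilpotent_mk_of_mem {O : Type} [CommRing O] [IsDomain O] [IsDiscreteValuationRing O]
    [CharZero O] {k : ℕ} {x : O} (hx : x ∈ IsLocalRing.maximalIdeal O) :
    IsNilpotent (Ideal.Quotient.mk (Ideal.span {(2 : O) ^ k}) x) := by
  obtain ⟨ϖ, hϖ⟩ := IsDiscreteValuationRing.exists_irreducible O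
  obtain ⟨m, hm⟩ := IsDiscreteValuationRing.associated_pow_irreducible
    (pow_ne_zero k (two_ne_zero (α := O))) hϖ
  rw [hϖ.maximalIdeal_eq, Ideal.mem_span_singleton] at hx
  refine ⟨m, ?_⟩
  rw [← map_pow, Ideal.Quotient.eq_zero_iff_mem, Ideal.mem_span_singleton]
  exact hm.dvd.trans (pow_dvd_pow_of_dvd hx m)

theorem System.isNilpotent_of_resid (k : ℕ) :
    ∀ x ∈ S.coeffs k, S.resid k x = 0 → IsNilpotent x := by
  rintro x ⟨u, rfl⟩ hx
  have hev : (2 : ℤ) ∣ evE W Q u := by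
    have h : (evE W Q u : ZMod 2) = 0 := by
      rw [← hx, System.resid, RingHom.comp_apply, RingHom.coe_snd, S.phi_snd, map_intCast]
    exact_mod_cast (ZMod.intCast_zmod_eq_zero_iff_dvd _ 2).mp h
  obtain ⟨c, hc⟩ := hev
  have hfst : ∀ i, IsNilpotent ((S.phi k u).1 i) := fun i => by
    obtain ⟨a, ha, ha'⟩ := S.exists_zbar i u
    refine isNilpotent_mk_of_mem ((S.rep i).coeff_compat _ a ha.symm |>.mpr ?_)
    have e : a = (a - ((evE W Q u : ℤ) : ZBar)) + 2 * (c : ZBar) := by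
      rw [hc]; push_cast; ring
    rw [e]
    exact add_mem ha' (Ideal.mul_mem_right _ _ S.two_mem)
  choose N hN using hfst
  refine ⟨(Finset.univ.sup N) + (n + 1), Prod.ext (funext fun i => ?_) ?_⟩
  · show ((S.phi k u).1 i) ^ _ = 0
    exact pow_eq_zero_of_le ((Finset.le_sup (Finset.mem_univ i)).trans (Nat.le_add_right _ _)) (hN i)
  · show ((S.phi k u).2) ^ _ = 0
    rw [S.phi_snd, hc]
    refine pow_eq_zero_of_le (Nat.le_add_left _ _) ?_
    push_cast
    rw [mul_pow, show ((2 : ZMod (2 ^ (n + 1)))) ^ (n + 1) = 0 by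
      exact_mod_cast ZMod.natCast_self (2 ^ (n + 1)), zero_mul]

theorem finite_quotient_two_pow {O : Type} [CommRing O] [IsDomain O] [IsDiscreteValuationRing O]
    [Finite (IsLocalRing.ResidueField O)] [CharZero O] (k : ℕ) :
    Finite (O ⧸ Ideal.span {(2 : O) ^ k}) := by
  obtain ⟨ϖ, hϖ⟩ := IsDiscreteValuationRing.exists_irreducible O
  obtain ⟨m, hm⟩ := IsDiscreteValuationRing.associated_pow_irreducible
    (pow_ne_zero k (two_ne_zero (α := O))) hϖ
  have he : Ideal.span {(2 : O) ^ k} = IsLocalRing.maximalIdeal O ^ m := by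
    rw [hϖ.maximalIdeal_eq, Ideal.span_singleton_pow, Ideal.span_singleton_eq_span_singleton]
    exact hm
  rw [he]
  have : Finite (O ⧸ IsLocalRing.maximalIdeal O) := ‹Finite (IsLocalRing.ResidueField O)›
  exact Ideal.finite_quotient_pow (IsNoetherian.noetherian _) m

instance System.finite_ambient (k : ℕ) : Finite (Ambient S k) := by
  have : ∀ i, Finite ((S.rep i).O ⧸ Ideal.span {(2 : (S.rep i).O) ^ k}) :=
    fun i => finite_quotient_two_pow k
  infer_instance

instance System.isLocalRing_coeffs (k : ℕ) : IsLocalRing (S.coeffs k) := by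
  have hnt : Nontrivial (S.coeffs k) :=
    ⟨⟨0, 1, fun h => zero_ne_one (α := ZMod 2) (by
      have := congrArg (fun x : S.coeffs k => S.resid k (x : Ambient S k)) h
      simp at this)⟩⟩
  refine IsLocalRing.of_isUnit_or_isUnit_one_sub_self fun x => ?_
  have key : ∀ y : S.coeffs k, S.resid k (y : Ambient S k) = 0 → IsUnit (1 - y) := fun y hy =>
    ((IsNilpotent.map_iff (f := (S.coeffs k).subtype) Subtype.val_injective).mp
      (S.isNilpotent_of_resid k _ y.2 hy)).isUnit_one_sub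
  rcases (show ∀ z : ZMod 2, z = 0 ∨ z = 1 by decide) (S.resid k (x : Ambient S k)) with h | h
  · exact Or.inr (key x h)
  · left
    have := key (1 - x) (by push_cast; rw [map_sub, map_one, h, sub_self])
    rwa [sub_sub_cancel] at this

theorem coe_two_pow {L : ℕ} (g : CuspForm (Gamma0 L) 2) (j : ℕ) :
    (((2 : coeffRing g) ^ j : coeffRing g) : ℂ) = (2 : ℂ) ^ j := rfl

theorem System.coeff_mk_eq_zero_iff [𝔪.IsPrime] (i : S.ι) (j : ℕ) (x : coeffRing (S.g i)) :
    (2 : (S.rep i).O) ^ j ∣ (S.rep i).coeff x ↔ ∃ v ∈ placeRing 𝔪, (x : ℂ) = 2 ^ j * v := by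
  have e : (2 : (S.rep i).O) ^ j = (S.rep i).coeff (2 ^ j) := by rw [map_pow, map_ofNat]
  rw [e, (S.rep i).coeff_place, exists_mul_eq_iff, coe_two_pow]

theorem System.mk_eq_zero [𝔪.IsPrime] (i : S.ι) (k : ℕ) (u : Ops W Q)
    (h : (S.phi k u).1 i = 0) : ∃ v ∈ placeRing 𝔪, S.gHom i u = 2 ^ k * v := by
  rw [S.phi_fst, Ideal.Quotient.eq_zero_iff_mem, Ideal.mem_span_singleton,
    S.coeff_mk_eq_zero_iff] at h
  exact h

theorem System.dvd_or_exists_mul [𝔪.IsPrime] (i : S.ι) (j : ℕ) (u : Ops W Q) :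
    (∃ v ∈ placeRing 𝔪, S.gHom i u = 2 ^ j * v) ∨
      ∃ v ∈ placeRing 𝔪, S.gHom i u * v = 2 ^ j ∧ ∀ v' ∈ placeRing 𝔪, v * v' ≠ 1 := by
  by_cases h : ∃ v ∈ placeRing 𝔪, S.gHom i u = 2 ^ j * v
  · exact Or.inl h
  right
  have hndvd : ¬ (S.rep i).coeff (2 ^ j) ∣ (S.rep i).coeff (S.coeffHom i u) := fun hd => by
    rw [map_pow, map_ofNat, S.coeff_mk_eq_zero_iff] at hd
    exact h hd
  obtain ⟨s, t, hs, hst⟩ :=
    ((S.rep i).coeff_place _ _).mp ((ValuationRing.dvd_total _ _).resolve_left hndvd)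
  obtain ⟨v, hv, hveq⟩ := exists_mul_eq_iff.mpr ⟨s, t, hs, hst⟩
  refine ⟨v, hv, by rw [S.gHom_apply, ← hveq, coe_two_pow], fun v' hv' hvv => h ⟨v', hv', ?_⟩⟩
  calc S.gHom i u = S.gHom i u * (v * v') := by rw [hvv, mul_one]
    _ = (S.coeffHom i u : ℂ) * v * v' := by rw [S.gHom_apply, mul_assoc]
    _ = _ := by rw [← hveq, coe_two_pow]

theorem System.gHom_injective : Function.Injective S.gHom := fun i j h => by
  refine S.inj ?_
  have hne : NeZero (level W Q) := ⟨Nat.mul_ne_zero W.conductorLevel_pos.ne'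
    (Finset.prod_ne_zero_iff.mpr fun q hq => (S.aux q hq).prime.ne_zero)⟩
  have hcoef : ∀ ℓ (hℓ : ℓ.Prime), ¬ ℓ ∣ level W Q → qCoeff (S.g j) ℓ = qCoeff (S.g i) ℓ :=
    fun ℓ hℓ hℓL => by
      have := RingHom.congr_fun h (MvPolynomial.X (Sum.inl ⟨ℓ, hℓ, hℓL⟩))
      simpa [System.gHom, System.coeffHom, System.val] using this.symm
  have h2 := Newforms.eq_smul_of_eigen (S.newform i) (f := S.g j) fun ℓ hℓ hℓL => by
    rw [Newforms.hOp_of_isNormalizedEigenform (S.newform j).1 hℓ, hcoef ℓ hℓ hℓL]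
  rw [(S.newform j).1.qCoeff_one, one_smul] at h2
  exact h2.symm

end Fermat.Agent.TwoAdic.Congruence
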